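import Fermat.Agent.S40x.Slope.OfRedSetup
import Fermat.Agent.S33x.KummerPn
import Fermat.Agent.S34x.TwoVal.ResidueSurj
import Fermat.Agent.S34x.TwoVal.Separating
import Fermat.Agent.S34x.TwoVal.GaloisRed
import Fermat.Agent.S34x.Inst.GaloisInst
import Fermat.Agent.Gateway.FkBasics.Modular
import Fermat.Agent.Gateway.BaseChange.Modular

/-!
# P-S44/S40 (R1-S): the slope invariants at level `M q`

The instance of `Slope/{UnitTwo, SlopeInv, Xf, OfRedSetup}` at the two Gauss valuations
`v_∞ = valInfty`, `v_0 = valZero` of `F = F_{Mq}` (`q ∤ M` the residue characteristic), residue maps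
`resInfty H`, `resZero H : O → Fk k M` (setting of `S33x/KummerPn`).

* `exists_sep` : the separating element of `TwoVal/Separating` in `RedSetup` form;
* `flatDataMq H hA hp` : `Xf.FlatData` (hence `TwoValData`, both `SlopeData`);
* `slopeInf H p x P`, `slopeZero H p x P : ZMod p` : **the slopes of a class `x ∈ Pic⁰(F_{Mq})` at a
  place `P` of `Fk k M`**, on the two components; `slopeInf_add`, `slopeInf_smul` (inertia), ...;
* `XfMq H hA hp` : the subgroup `X^f`; `K1_eq_Km` : `Xf.K1 = KummerPn.Km H hA p`;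
  `Km_le_XfMq`, `smul_mem_XfMq`;
* `jointLift` : strong approximation for `(red_∞, red_0)` on `O_∞ ⊓ O_0`;
* `mem_Km_iff_redClass_zero` : **(S3)** a class lies in `K_p` iff both its reductions
  (`Xf.RedClass`) are trivial.
-/

set_option autoImplicit false
set_option linter.style.haveILetI false
set_option linter.unusedSectionVars false

noncomputable section

namespace Fermat.Agent.S40x.Slope.InstMq

open ModularCurve AlgebraicCurve IntermediateField IsLocalRing
open Fermat.Agent.Gateway.Hecke Fermat.Agent.Gateway.ESC Fermat.Agent.Gateway.Kummer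
open Fermat.Agent.Gateway.Red Fermat.Agent.Gateway.GoodRed
open Fermat.Agent.S34x.TwoVal Fermat.Agent.S34x.C0two
open Fermat.Agent.S34x.Inst.RedSetupInst Fermat.Agent.S34x.Inst
open Fermat.Agent.S33x.KummerPn
open Fermat.Agent.S40x.Slope.UnitTwo Fermat.Agent.S40x.Slope.SlopeInv Fermat.Agent.S40x.Slope.Xf
  Fermat.Agent.S40x.Slope.OfRedSetup

variable {L : Type} [Field L] [Algebra ℚ L] [IsAlgClosed L] [Algebra.IsAlgebraic ℚ L]
  {A : ValuationSubring L}
  {k : Type} [Field k] {π : A →+* k} [IsAlgClosed k]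
variable {M q : ℕ} [NeZero M] [NeZero q] [Fact q.Prime] [CharP k q]
variable {hdeg : finrankAlong L (heckeAlphaBar L M q) = q + 1} {hq : q.Prime} {hqM : ¬ q ∣ M}
variable {hrk : ∀ x ∈ maximalIdeal A, ∀ c : A, c ≠ 0 → ∃ j : ℕ, c ∣ x ^ j}
  {hπ : Function.Surjective π}
variable (H : ResidueFacts A π M q hdeg hq hqM hrk hπ) (hA : A.LiesOverPrime q)

/-- `M` is invertible in `k` -/
theorem natCast_M_ne_zero (hqM : ¬ q ∣ M) : ((M : ℕ) : k) ≠ 0 := by
  rw [Ne, CharP.cast_eq_zero_iff k q]
  exact hqM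

/-- the separating element with reductions `(1, 0)`, in `RedSetup` form -/
theorem exists_sep :
    ∃ (s : FL L (M * q)) (h₁ : s ∈ valInfty A π M q hrk hπ hqM)
      (h₂ : s ∈ valZero A π M q hdeg hq hqM hrk hπ),
      (redSetupInfty H hA).res ⟨s, h₁⟩ = 1 ∧ (redSetupZero H hA).res ⟨s, h₂⟩ = 0 := by
  obtain ⟨s, hs, hs0, h1, h2⟩ := exists_separating' A π M q hdeg hq hqM hπ
  refine ⟨s, hs, hs0, ?_, ?_⟩
  · apply Subtype.ext
    show ((resInfty H ⟨s, hs⟩ : modularFunctionFieldFullC k M) : LaurentSeries k) = _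
    rw [coe_resInfty]
    exact h1
  · apply Subtype.ext
    show ((resZero H ⟨s, hs0⟩ : modularFunctionFieldFullC k M) : LaurentSeries k) = _
    rw [coe_resZero]
    exact h2

/-- functions of `F_{Mq}` without zeros and poles are constants -/
theorem hconstL : ∀ g : FL L (M * q), g ≠ 0 → (∀ v : Place L (FL L (M * q)), v.ord g = 0) →
    ∃ c : L, g = algebraMap L (FL L (M * q)) c := by
  haveI : CharZero L := algebraRat.charZero L
  exact fun g hg h => Fermat.Agent.Gateway.BaseChange.Modular.const_of_ord_eq_zero_FL L (M * q) g hg h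

/-- **the data of `Slope/Xf` at level `M q`** -/
theorem flatDataMq {p : ℕ} (hp : 0 < p) :
    FlatData (L := L) (valInfty A π M q hrk hπ hqM) (valZero A π M q hdeg hq hqM hrk hπ)
      (redSetupInfty H hA).res (redSetupZero H hA).res p := by
  obtain ⟨s, h₁, h₂, e₁, e₂⟩ := exists_sep H hA
  exact flatData (redSetupInfty H hA) (redSetupZero H hA) hp hconstL h₁ h₂ e₁ e₂

include H hA in
/-- the two valuations of `F_{Mq}` satisfy `UnitTwo.TwoValData` -/
theorem twoValDataMq :
    TwoValData A (valInfty A π M q hrk hπ hqM) (valZero A π M q hdeg hq hqM hrk hπ) := by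
  obtain ⟨s, h₁, h₂, e₁, e₂⟩ := exists_sep H hA
  exact twoValData (redSetupInfty H hA) (redSetupZero H hA) h₁ h₂ e₁ e₂

/-! ### The slopes -/

/-- **the slope of `x` at the place `P` of the component `C_∞`** -/
def slopeInf (p : ℕ) (x : Pic0 L (FL L (M * q))) (P : Place k (modularFunctionFieldFullC k M)) :
    ZMod p :=
  slopeAt (valInfty A π M q hrk hπ hqM) (valZero A π M q hdeg hq hqM hrk hπ)
    (valInfty A π M q hrk hπ hqM) (redSetupInfty H hA).res p x P

/-- **the slope of `x` at the place `P` of the component `C_0`** -/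
def slopeZero (p : ℕ) (x : Pic0 L (FL L (M * q))) (P : Place k (modularFunctionFieldFullC k M)) :
    ZMod p :=
  slopeAt (valInfty A π M q hrk hπ hqM) (valZero A π M q hdeg hq hqM hrk hπ)
    (valZero A π M q hdeg hq hqM hrk hπ) (redSetupZero H hA).res p x P

variable {H hA}

/-- the slopes are computed by ANY Kummer function which is a unit at both valuations -/
theorem slopeInf_eq {p : ℕ} (hp : 0 < p) {x : Pic0 L (FL L (M * q))} {w : FL L (M * q)}
    (hw : IsKummerRep p x w)
    (hU : UnitTwo (valInfty A π M q hrk hπ hqM) (valZero A π M q hdeg hq hqM hrk hπ) w)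
    (P : Place k (modularFunctionFieldFullC k M)) :
    slopeInf H hA p x P =
      ((P.ord (red (valInfty A π M q hrk hπ hqM) (redSetupInfty H hA).res w) : ℤ) : ZMod p) :=
  slopeAt_eq (flatDataMq H hA hp).S₁ P hw hU

theorem slopeZero_eq {p : ℕ} (hp : 0 < p) {x : Pic0 L (FL L (M * q))} {w : FL L (M * q)}
    (hw : IsKummerRep p x w)
    (hU : UnitTwo (valInfty A π M q hrk hπ hqM) (valZero A π M q hdeg hq hqM hrk hπ) w)
    (P : Place k (modularFunctionFieldFullC k M)) :
    slopeZero H hA p x P =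
      ((P.ord (red (valZero A π M q hdeg hq hqM hrk hπ) (redSetupZero H hA).res w) : ℤ) :
        ZMod p) :=
  slopeAt_eq (flatDataMq H hA hp).S₂ P hw hU

include H hA in
/-- every `p`-torsion class has a Kummer function which is a unit at both valuations -/
theorem exists_unitTwo_rep {p : ℕ} (hp : 0 < p) {x : Pic0 L (FL L (M * q))}
    (hx : (p : ℤ) • x = 0) :
    ∃ w : FL L (M * q), IsKummerRep p x w ∧
      UnitTwo (valInfty A π M q hrk hπ hqM) (valZero A π M q hdeg hq hqM hrk hπ) w :=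
  (flatDataMq H hA hp).S₁.exists_rep x hx

theorem slopeInf_add {p : ℕ} (hp : 0 < p) {x y : Pic0 L (FL L (M * q))} (hx : (p : ℤ) • x = 0)
    (hy : (p : ℤ) • y = 0) (P : Place k (modularFunctionFieldFullC k M)) :
    slopeInf H hA p (x + y) P = slopeInf H hA p x P + slopeInf H hA p y P :=
  slopeAt_add (flatDataMq H hA hp).S₁ P hx hy

theorem slopeZero_add {p : ℕ} (hp : 0 < p) {x y : Pic0 L (FL L (M * q))} (hx : (p : ℤ) • x = 0)
    (hy : (p : ℤ) • y = 0) (P : Place k (modularFunctionFieldFullC k M)) :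
    slopeZero H hA p (x + y) P = slopeZero H hA p x P + slopeZero H hA p y P :=
  slopeAt_add (flatDataMq H hA hp).S₂ P hx hy

theorem slopeInf_neg {p : ℕ} (hp : 0 < p) {x : Pic0 L (FL L (M * q))} (hx : (p : ℤ) • x = 0)
    (P : Place k (modularFunctionFieldFullC k M)) :
    slopeInf H hA p (-x) P = -slopeInf H hA p x P :=
  slopeAt_neg (flatDataMq H hA hp).S₁ P hx

theorem slopeZero_neg {p : ℕ} (hp : 0 < p) {x : Pic0 L (FL L (M * q))} (hx : (p : ℤ) • x = 0)
    (P : Place k (modularFunctionFieldFullC k M)) :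
    slopeZero H hA p (-x) P = -slopeZero H hA p x P :=
  slopeAt_neg (flatDataMq H hA hp).S₂ P hx

theorem slopeInf_zero {p : ℕ} (hp : 0 < p) (P : Place k (modularFunctionFieldFullC k M)) :
    slopeInf H hA p (0 : Pic0 L (FL L (M * q))) P = 0 :=
  slopeAt_zero (flatDataMq H hA hp).S₁ P

theorem slopeZero_zero {p : ℕ} (hp : 0 < p) (P : Place k (modularFunctionFieldFullC k M)) :
    slopeZero H hA p (0 : Pic0 L (FL L (M * q))) P = 0 :=
  slopeAt_zero (flatDataMq H hA hp).S₂ P

/-! ### Invariance under the inertia group -/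

section Inertia

variable {τ : L ≃ₐ[ℚ] L} (hτ : τ ∈ A.inertiaSubgroupIn ℚ)
include hτ

theorem gal_smul_mem_valInfty {f : FL L (M * q)} (hf : f ∈ valInfty A π M q hrk hπ hqM) :
    arithmeticGalois (modularFunctionFieldFull (M * q)) τ • f ∈ valInfty A π M q hrk hπ hqM :=
  (smul_mem_Ov_iff A π (M * q) hπ (GaloisInst.mem_decomposition_of_mem_inertia A hτ) f).mpr hf

theorem gal_smul_mem_valZero {f : FL L (M * q)}
    (hf : f ∈ valZero A π M q hdeg hq hqM hrk hπ) :
    arithmeticGalois (modularFunctionFieldFull (M * q)) τ • f ∈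
      valZero A π M q hdeg hq hqM hrk hπ :=
  (smul_mem_Ov0_iff A π M q hdeg hq hqM hπ
    (GaloisInst.mem_decomposition_of_mem_inertia A hτ) f).mpr hf

theorem resInfty_gal_smul (f : FL L (M * q)) (hf : f ∈ valInfty A π M q hrk hπ hqM) :
    (redSetupInfty H hA).res ⟨arithmeticGalois (modularFunctionFieldFull (M * q)) τ • f,
      gal_smul_mem_valInfty hτ hf⟩ = (redSetupInfty H hA).res ⟨f, hf⟩ := by
  obtain ⟨h1, e1⟩ := redV_smul_of_mem_inertia A π (M * q) hπ hτ hf
  apply Subtype.ext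
  show ((resInfty H _ : modularFunctionFieldFullC k M) : LaurentSeries k) =
    ((resInfty H _ : modularFunctionFieldFullC k M) : LaurentSeries k)
  rw [coe_resInfty, coe_resInfty]
  exact e1

theorem resZero_gal_smul (f : FL L (M * q)) (hf : f ∈ valZero A π M q hdeg hq hqM hrk hπ) :
    (redSetupZero H hA).res ⟨arithmeticGalois (modularFunctionFieldFull (M * q)) τ • f,
      gal_smul_mem_valZero hτ hf⟩ = (redSetupZero H hA).res ⟨f, hf⟩ := by
  obtain ⟨h1, e1⟩ := red0_smul_of_mem_inertia A π M q hdeg hq hqM hπ hτ hf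
  apply Subtype.ext
  show ((resZero H _ : modularFunctionFieldFullC k M) : LaurentSeries k) =
    ((resZero H _ : modularFunctionFieldFullC k M) : LaurentSeries k)
  rw [coe_resZero, coe_resZero]
  exact e1

/-- **the slopes are invariant under the inertia group** -/
theorem slopeInf_smul {p : ℕ} (hp : 0 < p) {x : Pic0 L (FL L (M * q))} (hx : (p : ℤ) • x = 0)
    (P : Place k (modularFunctionFieldFullC k M)) :
    slopeInf H hA p (τ • x) P = slopeInf H hA p x P := by
  rw [galois_smul_pic0_def]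
  exact slopeAt_smul (flatDataMq H hA hp).S₁ P _ (fun f hf => gal_smul_mem_valInfty hτ hf)
    (fun f hf => gal_smul_mem_valZero hτ hf) (fun f hf => gal_smul_mem_valInfty hτ hf)
    (fun f hf => resInfty_gal_smul hτ f hf) hx

theorem slopeZero_smul {p : ℕ} (hp : 0 < p) {x : Pic0 L (FL L (M * q))} (hx : (p : ℤ) • x = 0)
    (P : Place k (modularFunctionFieldFullC k M)) :
    slopeZero H hA p (τ • x) P = slopeZero H hA p x P := by
  rw [galois_smul_pic0_def]
  exact slopeAt_smul (flatDataMq H hA hp).S₂ P _ (fun f hf => gal_smul_mem_valInfty hτ hf)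
    (fun f hf => gal_smul_mem_valZero hτ hf) (fun f hf => gal_smul_mem_valZero hτ hf)
    (fun f hf => resZero_gal_smul hτ f hf) hx

end Inertia

/-! ### `X^f`, `K₁ = K_p` and the kernel theorem -/

variable (H hA)

/-- **`X^f` at level `M q`**: the `p`-torsion classes all of whose slopes vanish -/
def XfMq {p : ℕ} (hp : 0 < p) : AddSubgroup (Pic0 L (FL L (M * q))) :=
  Xf k (flatDataMq H hA hp)

variable {H hA}

theorem mem_XfMq_iff {p : ℕ} (hp : 0 < p) {x : Pic0 L (FL L (M * q))} :
    x ∈ XfMq H hA hp ↔ (p : ℤ) • x = 0 ∧ ∀ P : Place k (modularFunctionFieldFullC k M),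
      slopeInf H hA p x P = 0 ∧ slopeZero H hA p x P = 0 := Iff.rfl

/-- `UnitOne` in terms of the two valuations and the two reductions -/
theorem unitOne_iff {w : FL L (M * q)} :
    UnitOne (redSetup2 H hA) w ↔
      UnitTwo (valInfty A π M q hrk hπ hqM) (valZero A π M q hdeg hq hqM hrk hπ) w ∧
        red (valInfty A π M q hrk hπ hqM) (redSetupInfty H hA).res w = 1 ∧
        red (valZero A π M q hdeg hq hqM hrk hπ) (redSetupZero H hA).res w = 1 := by
  constructor
  · rintro ⟨hz, hzi, h1⟩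
    have e1 : (redSetupInfty H hA).res ⟨w, hz.1⟩ = 1 := congrArg Prod.fst h1
    have e2 : (redSetupZero H hA).res ⟨w, hz.2⟩ = 1 := congrArg Prod.snd h1
    refine ⟨⟨val_eq_one_of_res_ne_zero (redSetupInfty H hA) hz.1 (by rw [e1]; exact one_ne_zero),
      val_eq_one_of_res_ne_zero (redSetupZero H hA) hz.2 (by rw [e2]; exact one_ne_zero)⟩, ?_, ?_⟩
    · rw [red_of_mem hz.1, e1]
    · rw [red_of_mem hz.2, e2]
  · rintro ⟨hU, h1, h2⟩
    refine ⟨⟨hU.mem₁, hU.mem₂⟩, ⟨hU.inv.mem₁, hU.inv.mem₂⟩, ?_⟩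
    rw [red_of_mem hU.mem₁] at h1
    rw [red_of_mem hU.mem₂] at h2
    exact Prod.ext h1 h2

/-- **`K₁ = K_p`** (`KummerPn.Km`) -/
theorem K1_eq_Km (p : ℕ) :
    K1 (valInfty A π M q hrk hπ hqM) (valZero A π M q hdeg hq hqM hrk hπ)
      (redSetupInfty H hA).res (redSetupZero H hA).res p = Km H hA p := by
  ext x
  constructor
  · rintro ⟨w, hw, hU, h1, h2⟩
    exact ⟨w, hw, unitOne_iff.mpr ⟨hU, h1, h2⟩⟩
  · rintro ⟨w, hw, h⟩
    obtain ⟨hU, h1, h2⟩ := unitOne_iff.mp h
    exact ⟨w, hw, hU, h1, h2⟩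

/-- `K_p ⊆ X^f` -/
theorem Km_le_XfMq {p : ℕ} (hp : 0 < p) : Km H hA p ≤ XfMq H hA hp := by
  haveI : HasPrincipalDivisors k (modularFunctionFieldFullC k M) :=
    Fermat.Agent.Gateway.FkBasics.hasPrincipalDivisors_Fk k M (natCast_M_ne_zero hqM)
  rw [← K1_eq_Km]
  exact K1_le_Xf (flatDataMq H hA hp)

/-- `X^f` is stable under the inertia group -/
theorem smul_mem_XfMq {p : ℕ} (hp : 0 < p) {τ : L ≃ₐ[ℚ] L} (hτ : τ ∈ A.inertiaSubgroupIn ℚ)
    {x : Pic0 L (FL L (M * q))} (hx : x ∈ XfMq H hA hp) : τ • x ∈ XfMq H hA hp := by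
  obtain ⟨h0, h1⟩ := (mem_XfMq_iff hp).mp hx
  refine (mem_XfMq_iff hp).mpr ⟨?_, fun P => ⟨?_, ?_⟩⟩
  · have hcomm : (p : ℤ) • (τ • x) = τ • ((p : ℤ) • x) :=
      (map_zsmul (DistribMulAction.toAddMonoidHom (Pic0 L (FL L (M * q))) τ) (p : ℤ) x).symm
    rw [hcomm, h0]
    exact map_zero (DistribMulAction.toAddMonoidHom (Pic0 L (FL L (M * q))) τ)
  · rw [slopeInf_smul hτ hp h0]
    exact (h1 P).1
  · rw [slopeZero_smul hτ hp h0]
    exact (h1 P).2

/-- **strong approximation** for `(red_∞, red_0)` on `O_∞ ⊓ O_0` -/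
theorem jointLift (a b : modularFunctionFieldFullC k M) :
    ∃ (g : FL L (M * q)) (h₁ : g ∈ valInfty A π M q hrk hπ hqM)
      (h₂ : g ∈ valZero A π M q hdeg hq hqM hrk hπ),
      (redSetupInfty H hA).res ⟨g, h₁⟩ = a ∧ (redSetupZero H hA).res ⟨g, h₂⟩ = b := by
  obtain ⟨s, h₁, h₂, e₁, e₂⟩ := exists_sep H hA
  exact exists_joint_lift (redSetupInfty H hA) (redSetupZero H hA)
    (ResidueInst.redSetupInfty_res_surjective H hA) (ResidueInst.redSetupZero_res_surjective H hA)
    h₁ h₂ e₁ e₂ a b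

/-- **(S3) at level `M q`**: a class lies in `K_p` iff both its reductions are trivial. -/
theorem mem_Km_iff_redClass_zero {p : ℕ} (hp : 0 < p) {x : Pic0 L (FL L (M * q))} :
    x ∈ Km H hA p ↔
      RedClass (k := k) (valInfty A π M q hrk hπ hqM) (valZero A π M q hdeg hq hqM hrk hπ)
          (valInfty A π M q hrk hπ hqM) (redSetupInfty H hA).res p x 0 ∧
        RedClass (k := k) (valInfty A π M q hrk hπ hqM) (valZero A π M q hdeg hq hqM hrk hπ)
          (valZero A π M q hdeg hq hqM hrk hπ) (redSetupZero H hA).res p x 0 := by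
  haveI : HasPrincipalDivisors k (modularFunctionFieldFullC k M) :=
    Fermat.Agent.Gateway.FkBasics.hasPrincipalDivisors_Fk k M (natCast_M_ne_zero hqM)
  rw [← K1_eq_Km]
  exact mem_K1_iff_redClass_zero (flatDataMq H hA hp)
    (Fermat.Agent.Gateway.FkBasics.hconstk k M (natCast_M_ne_zero hqM)) jointLift

/-- the classes of `X^f` have reductions in `Pic⁰(Fk k M)[p]` on both components -/
theorem exists_redClass_of_mem_XfMq {p : ℕ} (hp : 0 < p) {x : Pic0 L (FL L (M * q))}
    (hx : x ∈ XfMq H hA hp) :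
    (∃ y : Pic0 k (modularFunctionFieldFullC k M),
      RedClass (valInfty A π M q hrk hπ hqM) (valZero A π M q hdeg hq hqM hrk hπ)
        (valInfty A π M q hrk hπ hqM) (redSetupInfty H hA).res p x y) ∧
    ∃ y : Pic0 k (modularFunctionFieldFullC k M),
      RedClass (valInfty A π M q hrk hπ hqM) (valZero A π M q hdeg hq hqM hrk hπ)
        (valZero A π M q hdeg hq hqM hrk hπ) (redSetupZero H hA).res p x y := by
  haveI : HasPrincipalDivisors k (modularFunctionFieldFullC k M) :=
    Fermat.Agent.Gateway.FkBasics.hasPrincipalDivisors_Fk k M (natCast_M_ne_zero hqM)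
  exact exists_redClass_of_mem_Xf (flatDataMq H hA hp) hx

end Fermat.Agent.S40x.Slope.InstMq
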