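import Fermat.Agent.S40x.Slope.UnitTwo

/-!
# P-S44/S40 (R1-S): unit normalisation INSIDE A SUBFIELD

Setting of `Slope/UnitTwo`.  The normalising function `g` of `UnitTwo.exists_unitTwo` is a power
of `u - ϖ` (`u` the node element, `ϖ` a constant); hence if the node element and the given function
`w₀` lie in an intermediate field `F'` of `F / L` (e.g. the image of a function field of lower
level), the unit-normalised function `c w₀ g ^ m` lies in `F'` too: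

* `exists_val_pow_eq_explicit` : the explicit form of `UnitTwo.exists_val_pow_eq`;
* `exists_unitTwo_mem` : `UnitTwo.exists_unitTwo` with `g ∈ F'`;
* `exists_unitTwo_kummerRep_mem` : a class with a Kummer function in `F'` has a Kummer function
  in `F'` which is a unit at both valuations (consumer: the descent step of block C2, where the
  Kummer function of `π^* x` must come from the level of `x`).
-/

set_option autoImplicit false
set_option linter.dupNamespace false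

noncomputable section

namespace Fermat.Agent.S40x.Slope.UnitTwoSub

open AlgebraicCurve Fermat.Agent.Gateway.Kummer Fermat.Agent.S34x.TwoVal.FundEq IsLocalRing
  Fermat.Agent.S40x.Slope.UnitTwo

variable {L : Type*} [Field L] {F : Type*} [Field F] [Algebra L F]
  {A : ValuationSubring L} {O₁ O₂ : ValuationSubring F}

/-- **explicit form of `UnitTwo.exists_val_pow_eq`**: `g = (u - ϖ) ^ N` for a node element `u`
(unit at `O₁`, `v₂ u ≤ v₂ ϖ₀`). -/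
theorem exists_val_pow_eq_explicit [IsAlgClosed L] (hD : TwoValData A O₁ O₂) {u : F}
    (hu1 : O₁.valuation u = 1) {ϖ₀ : L} (hϖ₀0 : ϖ₀ ≠ 0) (hϖ₀ : A.valuation ϖ₀ < 1)
    (hu2 : O₂.valuation u ≤ O₂.valuation (algebraMap L F ϖ₀))
    {δ : L} (hδ0 : δ ≠ 0) (hδ : A.valuation δ < 1) {m : ℕ} (hm : 0 < m) :
    ∃ (ϖ : L) (N : ℕ), (u - algebraMap L F ϖ) ^ N ≠ 0 ∧
      O₁.valuation ((u - algebraMap L F ϖ) ^ N) = 1 ∧
      O₂.valuation ((u - algebraMap L F ϖ) ^ N) ^ m = O₂.valuation (algebraMap L F δ) := by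
  -- rank one: `δ ∣ ϖ₀ ^ j`
  have hϖ₀A : ϖ₀ ∈ A := (A.valuation_le_one_iff ϖ₀).mp hϖ₀.le
  have hδA : δ ∈ A := (A.valuation_le_one_iff δ).mp hδ.le
  have hϖ₀m : (⟨ϖ₀, hϖ₀A⟩ : A) ∈ maximalIdeal A :=
    (A.valuation_lt_one_iff ⟨ϖ₀, hϖ₀A⟩).mpr hϖ₀
  have hδne : (⟨δ, hδA⟩ : A) ≠ 0 := fun h => hδ0 (congrArg Subtype.val h)
  obtain ⟨j, a, ha⟩ := hD.rank_one _ hϖ₀m ⟨δ, hδA⟩ hδne
  have hj : ϖ₀ ^ j = δ * (a : L) := by
    have := congrArg (Subtype.val : A → L) ha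
    simpa using this
  have hvj : A.valuation ϖ₀ ^ j ≤ A.valuation δ := by
    rw [← map_pow, hj, map_mul]
    calc A.valuation δ * A.valuation (a : L) ≤ A.valuation δ * 1 := by
          gcongr
          exact (A.valuation_le_one_iff _).mpr a.2
      _ = A.valuation δ := mul_one _
  -- the root `ϖ`
  set N : ℕ := j + 1 with hN
  have hmN : 0 < m * N := Nat.mul_pos hm (Nat.succ_pos j)
  obtain ⟨ϖ, hϖ⟩ := IsAlgClosed.exists_pow_nat_eq δ hmN
  have hϖ0 : ϖ ≠ 0 := by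
    rintro rfl
    rw [zero_pow hmN.ne'] at hϖ
    exact hδ0 hϖ.symm
  have hvϖ0 : A.valuation ϖ ≠ 0 := (Valuation.ne_zero_iff _).mpr hϖ0
  have hvϖ₀0 : A.valuation ϖ₀ ≠ 0 := (Valuation.ne_zero_iff _).mpr hϖ₀0
  have hϖlt : A.valuation ϖ < 1 := by
    by_contra h
    rw [not_lt] at h
    have : 1 ≤ A.valuation ϖ ^ (m * N) := one_le_pow_of_one_le' h _
    rw [← map_pow, hϖ] at this
    exact absurd hδ (not_lt.mpr this)
  -- `v ϖ₀ < v ϖ`
  have hlt : A.valuation ϖ₀ < A.valuation ϖ := by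
    by_contra h
    rw [not_lt] at h
    have h1 : A.valuation δ ≤ A.valuation ϖ₀ ^ (m * N) := by
      rw [← hϖ, map_pow]
      exact pow_le_pow_left' h _
    have h2 : A.valuation ϖ₀ ^ (m * N) ≤ A.valuation ϖ₀ ^ N :=
      pow_le_pow_right_of_le_one' hϖ₀.le (Nat.le_mul_of_pos_left N hm)
    have h3 : A.valuation ϖ₀ ^ N < A.valuation ϖ₀ ^ j := by
      rw [hN, pow_succ]
      calc A.valuation ϖ₀ ^ j * A.valuation ϖ₀ < A.valuation ϖ₀ ^ j * 1 := by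
            exact mul_lt_mul_of_pos_left hϖ₀ (pow_pos (zero_lt_iff.mpr hvϖ₀0) j)
        _ = A.valuation ϖ₀ ^ j := mul_one _
    exact absurd (lt_of_le_of_lt (h1.trans h2) h3) (not_lt.mpr hvj)
  -- the element `u - ϖ`
  have h1ϖ : O₁.valuation (algebraMap L F ϖ) < 1 := (hD.lies₁.lt_one_iff ϖ).mpr hϖlt
  have hg₀1 : O₁.valuation (u - algebraMap L F ϖ) = 1 := by
    rw [Valuation.map_sub_eq_of_lt_left _ (by rw [hu1]; exact h1ϖ), hu1]
  have h2lt : O₂.valuation u < O₂.valuation (algebraMap L F ϖ) :=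
    lt_of_le_of_lt hu2 ((hD.lies₂.lt_iff ϖ₀ ϖ).mpr hlt)
  have hg₀2 : O₂.valuation (u - algebraMap L F ϖ) = O₂.valuation (algebraMap L F ϖ) := by
    rw [Valuation.map_sub_eq_of_lt_right _ h2lt]
  refine ⟨ϖ, N, ?_, by rw [map_pow, hg₀1, one_pow], ?_⟩
  · apply pow_ne_zero
    intro h0
    rw [h0, map_zero] at hg₀1
    exact zero_ne_one hg₀1
  · rw [map_pow, hg₀2, ← pow_mul, ← map_pow, ← map_pow, mul_comm N m, hϖ]

/-- **Unit normalisation inside an intermediate field** `F'` containing the node element. -/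
theorem exists_unitTwo_mem [IsAlgClosed L] (hD : TwoValData A O₁ O₂) (F' : IntermediateField L F)
    {u : F} (huF' : u ∈ F') (hu1 : O₁.valuation u = 1) {ϖ₀ : L} (hϖ₀0 : ϖ₀ ≠ 0)
    (hϖ₀ : A.valuation ϖ₀ < 1) (hu2 : O₂.valuation u ≤ O₂.valuation (algebraMap L F ϖ₀))
    {m : ℕ} (hm : 0 < m) {w₀ : F} (hw₀ : w₀ ≠ 0) :
    ∃ (c : L) (g : F), c ≠ 0 ∧ g ≠ 0 ∧ g ∈ F' ∧
      UnitTwo O₁ O₂ (algebraMap L F c * w₀ * g ^ m) := by
  obtain ⟨c₁, hc₁, h1⟩ := hD.scal₁ w₀ hw₀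
  obtain ⟨c₂, hc₂, h2⟩ := hD.scal₂ w₀ hw₀
  rw [Algebra.smul_def] at h1 h2
  set γ : L := c₁ / c₂ with hγ
  have hγ0 : γ ≠ 0 := div_ne_zero hc₁ hc₂
  have hc₁γ : c₁ = γ * c₂ := by rw [hγ]; field_simp
  have h2' : O₂.valuation (algebraMap L F c₁ * w₀) = O₂.valuation (algebraMap L F γ) := by
    rw [hc₁γ, (algebraMap L F).map_mul, mul_assoc, O₂.valuation.map_mul, h2, mul_one]
  have hmem : ∀ (ϖ : L) (N : ℕ), (u - algebraMap L F ϖ) ^ N ∈ F' := fun ϖ N =>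
    pow_mem (sub_mem huF' (F'.algebraMap_mem ϖ)) N
  rcases lt_trichotomy (A.valuation γ) 1 with hlt | heq | hgt
  · obtain ⟨ϖ, N, hg0, hg1, hg2⟩ :=
      exists_val_pow_eq_explicit hD hu1 hϖ₀0 hϖ₀ hu2 hγ0 hlt hm
    refine ⟨c₁, ((u - algebraMap L F ϖ) ^ N)⁻¹, hc₁, inv_ne_zero hg0, inv_mem (hmem ϖ N), ?_, ?_⟩
    · rw [map_mul, h1, one_mul, map_pow, map_inv₀, hg1, inv_one, one_pow]
    · rw [map_mul, h2', map_pow, map_inv₀, inv_pow, hg2]
      exact mul_inv_cancel₀ ((Valuation.ne_zero_iff _).mpr ((map_ne_zero _).mpr hγ0))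
  · refine ⟨c₁, 1, hc₁, one_ne_zero, one_mem _, ?_, ?_⟩
    · rw [one_pow, mul_one, h1]
    · rw [one_pow, mul_one, h2']
      exact (hD.lies₂.eq_one_iff γ).mpr heq
  · have hlt : A.valuation γ⁻¹ < 1 := by
      rw [map_inv₀]
      exact inv_lt_one_of_one_lt₀ hgt
    obtain ⟨ϖ, N, hg0, hg1, hg2⟩ :=
      exists_val_pow_eq_explicit hD hu1 hϖ₀0 hϖ₀ hu2 (inv_ne_zero hγ0) hlt hm
    refine ⟨c₁, (u - algebraMap L F ϖ) ^ N, hc₁, hg0, hmem ϖ N, ?_, ?_⟩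
    · rw [map_mul, h1, one_mul, map_pow, hg1, one_pow]
    · rw [map_mul, h2', map_pow, hg2, ← map_mul, ← map_mul, mul_inv_cancel₀ hγ0, map_one, map_one]

/-- **a class with a Kummer function in `F'` has a unit-normalised Kummer function in `F'`** -/
theorem exists_unitTwo_kummerRep_mem [IsAlgClosed L] [HasPrincipalDivisors L F]
    (hD : TwoValData A O₁ O₂) (F' : IntermediateField L F)
    {u : F} (huF' : u ∈ F') (hu1 : O₁.valuation u = 1) {ϖ₀ : L} (hϖ₀0 : ϖ₀ ≠ 0)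
    (hϖ₀ : A.valuation ϖ₀ < 1) (hu2 : O₂.valuation u ≤ O₂.valuation (algebraMap L F ϖ₀))
    {m : ℕ} (hm : 0 < m) {ξ : Pic0 L F} {w₀ : F} (hw₀ : IsKummerRep m ξ w₀) (hw₀F' : w₀ ∈ F') :
    ∃ w : F, w ∈ F' ∧ IsKummerRep m ξ w ∧ UnitTwo O₁ O₂ w := by
  obtain ⟨c, g, hc, hg, hgF', hU⟩ :=
    exists_unitTwo_mem hD F' huF' hu1 hϖ₀0 hϖ₀ hu2 hm hw₀.ne_zero
  refine ⟨algebraMap L F c * w₀ * g ^ m,
    mul_mem (mul_mem (F'.algebraMap_mem c) hw₀F') (pow_mem hgF' m), ?_, hU⟩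
  have h := (hw₀.const_mul hc).mul (isKummerRep_zero_pow' (L := L) m hg)
  rwa [add_zero] at h

end Fermat.Agent.S40x.Slope.UnitTwoSub
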