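import Fermat.Agent.S40x.Slope.UnitTwo
import Fermat.Prelude.Def_AlgebraicCurve_BaseChangeGalois

/-!
# P-S40 (research mode, R1-S), (S2): the slope invariant at every place of the residue curves

Setting of `Slope/UnitTwo`: two valuation subrings `O₁ O₂` of `F / L`; moreover a residue map
`ρ : O →+* E` (`O` one of the two) onto a function field `E / k`.  For a Kummer function `w` of
exponent `p` of a class `ξ` which is a unit at both valuations, and a place `P` of `E / k`,

  `slopeFn O ρ p P w := (P.ord (red O ρ w) : ZMod p)`.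

* `exists_eq_mul_pow` (S2.1): two unit-normalised Kummer functions of the same class differ by the
  `p`-th power of a unit (constants are `p`-th powers; functions without zeros and poles are
  constants);
* `slopeFn_eq_of_kummer` : hence `slopeFn` depends only on the class: `slopeAt`, `slopeAt_eq`;
* `slopeAt_add`, `slopeAt_zero`, `slopeAt_neg` (S2.2): additivity;
* `slopeAt_smul` (S2.3): invariance under semilinear automorphisms preserving `O₁`, `O₂` and
  acting trivially on the reduction (the inertia group);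
* `exists_divisor_slopeAt` (S2.4): the slope vector is the reduction mod `p` of a principal
  divisor of `E` (degree `0`).
-/

set_option autoImplicit false
set_option linter.unusedSectionVars false

noncomputable section

namespace Fermat.Agent.S40x.Slope.SlopeInv

open AlgebraicCurve Fermat.Agent.Gateway.Kummer Fermat.Agent.S40x.Slope.UnitTwo

open scoped Classical

variable {L : Type*} [Field L] {F : Type*} [Field F] [Algebra L F]
  {k : Type*} [Field k] {E : Type*} [Field E] [Algebra k E]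

/-! ### Reduction of an element, extended by zero -/

/-- the reduction of `w` along `ρ : O →+* E` (zero outside `O`) -/
def red (O : ValuationSubring F) (ρ : O →+* E) (w : F) : E :=
  if h : w ∈ O then ρ ⟨w, h⟩ else 0

variable {O : ValuationSubring F} {ρ : O →+* E}

theorem red_of_mem {w : F} (h : w ∈ O) : red O ρ w = ρ ⟨w, h⟩ := dif_pos h

theorem red_one : red O ρ (1 : F) = 1 := by
  rw [red_of_mem O.one_mem]
  exact map_one ρ

theorem red_mul {w w' : F} (h : w ∈ O) (h' : w' ∈ O) :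
    red O ρ (w * w') = red O ρ w * red O ρ w' := by
  rw [red_of_mem h, red_of_mem h', red_of_mem (O.mul_mem _ _ h h'), ← map_mul]
  rfl

theorem red_pow {w : F} (h : w ∈ O) (n : ℕ) : red O ρ (w ^ n) = red O ρ w ^ n := by
  rw [red_of_mem h, red_of_mem (pow_mem h n), ← map_pow]
  rfl

theorem mem_of_val_eq_one {w : F} (h : O.valuation w = 1) : w ∈ O :=
  (O.valuation_le_one_iff w).mp h.le

/-- the reduction of a unit is nonzero -/
theorem red_ne_zero (hker : ∀ x : O, ρ x = 0 ↔ O.valuation (x : F) < 1) {w : F}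
    (h : O.valuation w = 1) : red O ρ w ≠ 0 := by
  rw [red_of_mem (mem_of_val_eq_one h)]
  intro h0
  have := (hker ⟨w, mem_of_val_eq_one h⟩).mp h0
  rw [h] at this
  exact lt_irrefl _ this

/-- the reduction of the inverse of a unit -/
theorem red_inv {w : F} (h : O.valuation w = 1) : red O ρ w⁻¹ = (red O ρ w)⁻¹ := by
  have hi : O.valuation w⁻¹ = 1 := by rw [map_inv₀, h, inv_one]
  have hw0 : w ≠ 0 := by
    rintro rfl
    rw [map_zero] at h
    exact zero_ne_one h
  have h1 := red_mul (ρ := ρ) (mem_of_val_eq_one h) (mem_of_val_eq_one hi)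
  rw [mul_inv_cancel₀ hw0, red_one] at h1
  exact eq_inv_of_mul_eq_one_right h1.symm

/-! ### The slope of a function at a place -/

/-- the order of the reduction of `w` at `P`, modulo `p` -/
def slopeFn (O : ValuationSubring F) (ρ : O →+* E) (p : ℕ) (P : Place k E) (w : F) : ZMod p :=
  ((P.ord (red O ρ w) : ℤ) : ZMod p)

theorem ord_pow (P : Place k E) (f : E) (n : ℕ) : P.ord (f ^ n) = (n : ℤ) * P.ord f := by
  rw [← zpow_natCast, P.ord_zpow]

theorem slopeFn_one (p : ℕ) (P : Place k E) : slopeFn O ρ p P (1 : F) = 0 := by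
  rw [slopeFn, red_one, Place.ord_one, Int.cast_zero]

/-- multiplicativity on units -/
theorem slopeFn_mul (hker : ∀ x : O, ρ x = 0 ↔ O.valuation (x : F) < 1) (p : ℕ) (P : Place k E)
    {w w' : F} (h : O.valuation w = 1) (h' : O.valuation w' = 1) :
    slopeFn O ρ p P (w * w') = slopeFn O ρ p P w + slopeFn O ρ p P w' := by
  rw [slopeFn, slopeFn, slopeFn, red_mul (mem_of_val_eq_one h) (mem_of_val_eq_one h'),
    P.ord_mul (red_ne_zero hker h) (red_ne_zero hker h'), Int.cast_add]

theorem slopeFn_inv (hker : ∀ x : O, ρ x = 0 ↔ O.valuation (x : F) < 1) (p : ℕ) (P : Place k E)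
    {w : F} (h : O.valuation w = 1) :
    slopeFn O ρ p P w⁻¹ = -slopeFn O ρ p P w := by
  have hi : O.valuation w⁻¹ = 1 := by rw [map_inv₀, h, inv_one]
  have hw0 : w ≠ 0 := by
    rintro rfl
    rw [map_zero] at h
    exact zero_ne_one h
  have h1 := slopeFn_mul hker p P h hi
  rw [mul_inv_cancel₀ hw0, slopeFn_one] at h1
  exact eq_neg_of_add_eq_zero_right h1.symm

/-- `p`-th powers of units have slope `0` -/
theorem slopeFn_pow_self (p : ℕ)
    (P : Place k E) {g : F} (h : O.valuation g = 1) : slopeFn O ρ p P (g ^ p) = 0 := by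
  rw [slopeFn, red_pow (mem_of_val_eq_one h), ord_pow, Int.cast_mul, Int.cast_natCast,
    ZMod.natCast_self, zero_mul]

/-! ### (S2.1): uniqueness of the unit-normalised Kummer function up to `p`-th powers of units -/

section Unique

variable [HasPrincipalDivisors L F] {O₁ O₂ : ValuationSubring F}

/-- A Kummer function of the trivial class is an `m`-th power (constants are `m`-th powers and
functions without zeros and poles are constants). -/
theorem exists_eq_pow_of_isKummerRep_zero [IsAlgClosed L]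
    (hconst : ∀ g : F, g ≠ 0 → (∀ v : Place L F, v.ord g = 0) → ∃ c : L, g = algebraMap L F c)
    {m : ℕ} (hm : 0 < m) {f : F} (hf : IsKummerRep m (0 : Pic0 L F) f) :
    ∃ g : F, g ≠ 0 ∧ f = g ^ m := by
  have hm' : (m : ℤ) ≠ 0 := by exact_mod_cast hm.ne'
  obtain ⟨hne, D, hD0, hD⟩ := hf
  rw [mk_eq_zero_iff] at hD0
  obtain ⟨g₀, hg₀, hDg⟩ := hD0
  -- `f / g₀ ^ m` has no zeros and no poles
  have hq : ∀ v : Place L F, v.ord (f / g₀ ^ m) = 0 := by
    intro v
    rw [div_eq_mul_inv, v.ord_mul hne (inv_ne_zero (pow_ne_zero _ hg₀)), v.ord_inv,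
      ← zpow_natCast, v.ord_zpow, ← hD v, hDg v]
    ring
  obtain ⟨c, hc⟩ := hconst _ (div_ne_zero hne (pow_ne_zero _ hg₀)) hq
  have hc0 : c ≠ 0 := by
    rintro rfl
    rw [map_zero] at hc
    exact (div_ne_zero hne (pow_ne_zero _ hg₀)) hc
  obtain ⟨μ, hμ⟩ := IsAlgClosed.exists_pow_nat_eq c hm
  have hμ0 : μ ≠ 0 := by
    rintro rfl
    rw [zero_pow hm.ne'] at hμ
    exact hc0 hμ.symm
  refine ⟨algebraMap L F μ * g₀, mul_ne_zero ((map_ne_zero _).mpr hμ0) hg₀, ?_⟩
  rw [mul_pow, ← map_pow, hμ, ← hc]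
  field_simp [pow_ne_zero m hg₀]

/-- **(S2.1)** Two Kummer functions of the same class which are units at both valuations differ by
the `m`-th power of a unit. -/
theorem exists_eq_mul_pow [IsAlgClosed L]
    (hconst : ∀ g : F, g ≠ 0 → (∀ v : Place L F, v.ord g = 0) → ∃ c : L, g = algebraMap L F c)
    {m : ℕ} (hm : 0 < m) {ξ : Pic0 L F} {w w' : F} (hw : IsKummerRep m ξ w)
    (hw' : IsKummerRep m ξ w') (hU : UnitTwo O₁ O₂ w) (hU' : UnitTwo O₁ O₂ w') :
    ∃ g : F, UnitTwo O₁ O₂ g ∧ w' = w * g ^ m := by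
  -- `w' / w` is a Kummer function of the trivial class
  have h0 := hw'.div hw
  rw [sub_self] at h0
  obtain ⟨g, -, hg⟩ := exists_eq_pow_of_isKummerRep_zero hconst hm h0
  have hww : w' = w * g ^ m := by
    rw [← hg]
    field_simp [hw.ne_zero]
  refine ⟨g, ?_, hww⟩
  have key : ∀ O : ValuationSubring F, O.valuation w = 1 → O.valuation w' = 1 →
      O.valuation g = 1 := by
    intro O h1 h2
    have h3 : O.valuation g ^ m = 1 := by
      have := congrArg O.valuation hww
      rw [map_mul, h1, h2, one_mul, map_pow] at this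
      exact this.symm
    exact (pow_eq_one_iff_of_nonneg zero_le hm.ne').mp h3
  exact ⟨key O₁ hU.1 hU'.1, key O₂ hU.2 hU'.2⟩

end Unique

/-! ### The slope of a class -/

section Class

variable [HasPrincipalDivisors L F] {O₁ O₂ : ValuationSubring F}

/-- The hypotheses under which the slope invariant is defined: `O` is one of the two valuations,
`ρ` a residue map with the expected kernel, constants are the only functions without zeros and
poles, and unit-normalised Kummer functions exist (`UnitTwo.exists_unitTwo_kummerRep`). -/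
structure SlopeData (O₁ O₂ O : ValuationSubring F) (ρ : O →+* E) (p : ℕ) : Prop where
  pos : 0 < p
  unit_of : ∀ w : F, UnitTwo O₁ O₂ w → O.valuation w = 1
  ker : ∀ x : O, ρ x = 0 ↔ O.valuation (x : F) < 1
  const : ∀ g : F, g ≠ 0 → (∀ v : Place L F, v.ord g = 0) → ∃ c : L, g = algebraMap L F c
  exists_rep : ∀ ξ : Pic0 L F, (p : ℤ) • ξ = 0 → ∃ w : F, IsKummerRep p ξ w ∧ UnitTwo O₁ O₂ w

/-- **The slope of the class `ξ` at the place `P`** (`0` if `ξ` is not `p`-torsion). -/
def slopeAt (O₁ O₂ O : ValuationSubring F) (ρ : O →+* E) (p : ℕ) (ξ : Pic0 L F) (P : Place k E) :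
    ZMod p :=
  if h : ∃ w : F, IsKummerRep p ξ w ∧ UnitTwo O₁ O₂ w then slopeFn O ρ p P h.choose else 0

variable {p : ℕ} {ρ : O →+* E}

/-- the slope is independent of the unit-normalised Kummer function -/
theorem slopeFn_eq_of_kummer [IsAlgClosed L] (hS : SlopeData (L := L) O₁ O₂ O ρ p) (P : Place k E)
    {ξ : Pic0 L F} {w w' : F} (hw : IsKummerRep p ξ w) (hw' : IsKummerRep p ξ w')
    (hU : UnitTwo O₁ O₂ w) (hU' : UnitTwo O₁ O₂ w') :
    slopeFn O ρ p P w' = slopeFn O ρ p P w := by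
  obtain ⟨g, hg, rfl⟩ := exists_eq_mul_pow hS.const hS.pos hw hw' hU hU'
  have h1 := hS.unit_of w hU
  have h2 := hS.unit_of g hg
  have h3 : O.valuation (g ^ p) = 1 := by rw [map_pow, h2, one_pow]
  rw [slopeFn_mul hS.ker p P h1 h3, slopeFn_pow_self p P h2, add_zero]

theorem slopeAt_eq [IsAlgClosed L] (hS : SlopeData (L := L) O₁ O₂ O ρ p) (P : Place k E)
    {ξ : Pic0 L F} {w : F} (hw : IsKummerRep p ξ w) (hU : UnitTwo O₁ O₂ w) :
    slopeAt O₁ O₂ O ρ p ξ P = slopeFn O ρ p P w := by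
  have h : ∃ w : F, IsKummerRep p ξ w ∧ UnitTwo O₁ O₂ w := ⟨w, hw, hU⟩
  rw [slopeAt, dif_pos h]
  exact slopeFn_eq_of_kummer hS P hw h.choose_spec.1 hU h.choose_spec.2

theorem slopeAt_zero [IsAlgClosed L] (hS : SlopeData (L := L) O₁ O₂ O ρ p) (P : Place k E) :
    slopeAt O₁ O₂ O ρ p (0 : Pic0 L F) P = 0 := by
  rw [slopeAt_eq hS P (isKummerRep_zero_one p) unitTwo_one, slopeFn_one]

/-- **(S2.2)** additivity -/
theorem slopeAt_add [IsAlgClosed L] (hS : SlopeData (L := L) O₁ O₂ O ρ p) (P : Place k E)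
    {ξ η : Pic0 L F} (hξ : (p : ℤ) • ξ = 0) (hη : (p : ℤ) • η = 0) :
    slopeAt O₁ O₂ O ρ p (ξ + η) P = slopeAt O₁ O₂ O ρ p ξ P + slopeAt O₁ O₂ O ρ p η P := by
  obtain ⟨w, hw, hU⟩ := hS.exists_rep ξ hξ
  obtain ⟨w', hw', hU'⟩ := hS.exists_rep η hη
  rw [slopeAt_eq hS P (hw.mul hw') (hU.mul hU'), slopeAt_eq hS P hw hU, slopeAt_eq hS P hw' hU',
    slopeFn_mul hS.ker p P (hS.unit_of w hU) (hS.unit_of w' hU')]

theorem slopeAt_neg [IsAlgClosed L] (hS : SlopeData (L := L) O₁ O₂ O ρ p) (P : Place k E)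
    {ξ : Pic0 L F} (hξ : (p : ℤ) • ξ = 0) :
    slopeAt O₁ O₂ O ρ p (-ξ) P = -slopeAt O₁ O₂ O ρ p ξ P := by
  obtain ⟨w, hw, hU⟩ := hS.exists_rep ξ hξ
  rw [slopeAt_eq hS P hw.inv hU.inv, slopeAt_eq hS P hw hU,
    slopeFn_inv hS.ker p P (hS.unit_of w hU)]

/-- **(S2.3)** invariance under a semilinear automorphism preserving both valuation rings and
acting trivially on the reduction. -/
theorem slopeAt_smul [IsAlgClosed L] (hS : SlopeData (L := L) O₁ O₂ O ρ p) (P : Place k E)
    (g : SemilinearAut L F) (hg₁ : ∀ f ∈ O₁, g • f ∈ O₁) (hg₂ : ∀ f ∈ O₂, g • f ∈ O₂)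
    (hgO : ∀ f ∈ O, g • f ∈ O)
    (hres : ∀ (f : F) (hf : f ∈ O), ρ ⟨g • f, hgO f hf⟩ = ρ ⟨f, hf⟩)
    {ξ : Pic0 L F} (hξ : (p : ℤ) • ξ = 0) :
    slopeAt O₁ O₂ O ρ p (g • ξ) P = slopeAt O₁ O₂ O ρ p ξ P := by
  obtain ⟨w, hw, hU⟩ := hS.exists_rep ξ hξ
  have hw0 : w ≠ 0 := hw.ne_zero
  have key : ∀ O' : ValuationSubring F, (∀ f ∈ O', g • f ∈ O') → O'.valuation w = 1 →
      O'.valuation (g • w) = 1 := by
    intro O' hO' h1
    have hwm : w ∈ O' := mem_of_val_eq_one h1
    have hwi : w⁻¹ ∈ O' := by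
      apply mem_of_val_eq_one
      rw [map_inv₀, h1, inv_one]
    have h2 : g • w ∈ O' := hO' w hwm
    have h3 : (g • w)⁻¹ ∈ O' := by
      rw [← smul_inv'']
      exact hO' _ hwi
    apply le_antisymm ((O'.valuation_le_one_iff _).mpr h2)
    have h4 := (O'.valuation_le_one_iff _).mpr h3
    rw [map_inv₀] at h4
    have hne : O'.valuation (g • w) ≠ 0 := by
      rw [Valuation.ne_zero_iff]
      exact (smul_ne_zero_iff_ne g).mpr hw0
    exact (inv_le_one₀ (zero_lt_iff.mpr hne)).mp h4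
  have hU' : UnitTwo O₁ O₂ (g • w) := ⟨key O₁ hg₁ hU.1, key O₂ hg₂ hU.2⟩
  rw [slopeAt_eq hS P (hw.smul g) hU', slopeAt_eq hS P hw hU, slopeFn, slopeFn]
  have hwm : w ∈ O := mem_of_val_eq_one (hS.unit_of w hU)
  rw [red_of_mem (hgO w hwm), red_of_mem hwm, hres w hwm]

/-- **(S2.4)** the slope vector of a class is the reduction modulo `p` of a principal divisor of
`E` (in particular of a divisor of degree `0`). -/
theorem exists_divisor_slopeAt [IsAlgClosed L] [HasPrincipalDivisors k E]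
    (hS : SlopeData (L := L) O₁ O₂ O ρ p) {ξ : Pic0 L F} (hξ : (p : ℤ) • ξ = 0) :
    ∃ D : Divisor k E, Divisor.degree D = 0 ∧
      ∀ P : Place k E, ((D P : ℤ) : ZMod p) = slopeAt O₁ O₂ O ρ p ξ P := by
  obtain ⟨w, hw, hU⟩ := hS.exists_rep ξ hξ
  obtain ⟨D, hD, hdeg⟩ := HasPrincipalDivisors.exists_divisor (K := k) (red O ρ w)
    (red_ne_zero hS.ker (hS.unit_of w hU))
  refine ⟨D, hdeg, fun P => ?_⟩
  rw [slopeAt_eq hS P hw hU, slopeFn, hD P]

end Class

end Fermat.Agent.S40x.Slope.SlopeInv
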