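import Fermat.Agent.S40x.Slope.Xf

/-!
# P-S44/S40 (R1-S): computing the slopes

Setting of `Slope/SlopeInv`.  The slope `slopeAt O₁ O₂ O ρ p x P` was defined through a Kummer
function which is a unit at BOTH valuations; here:

* `slopeAt_eq_of_val_eq_one` : it is computed by ANY Kummer function `w₀` of `x` which is a unit at
  the ONE valuation `O` (the quotient of two Kummer functions is a `p`-th power, of a unit at `O`);
* `slopeAt_eq_of_const_mul` : hence by `c f` for ANY Kummer function `f` and any constant `c` with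
  `v_O (c f) = 1` (the form in which the tame lemma (TAME) of board `S44_R1` is consumed:
  `ord_{P_s} red_∞ (f / p ^ a)`);
* `slopeAt_eq_zero_of_lit` : **(b5)** the slope at `P` vanishes as soon as reductions of functions
  with divisor in `p Div` have order divisible by `p` at `P` (smooth points, (N-Sm));
* `slopeAt_add_eq_zero_of_lit` : **(d)** the node relation `n_s + n'_s = 0` from its literal;
* `slopeAt_eq_of_lit` : the slope at `P` is the constant `c` for every class whose Kummer functions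
  satisfy the congruence `ord_P (red g) ≡ c`.
-/

set_option autoImplicit false
set_option linter.unusedSectionVars false

noncomputable section

namespace Fermat.Agent.S40x.Slope.Compute

open AlgebraicCurve Fermat.Agent.Gateway.Kummer Fermat.Agent.S40x.Slope.UnitTwo
  Fermat.Agent.S40x.Slope.SlopeInv Fermat.Agent.S40x.Slope.Xf

variable {L : Type*} [Field L] {F : Type*} [Field F] [Algebra L F] [HasPrincipalDivisors L F]
  {k : Type*} [Field k] {E : Type*} [Field E] [Algebra k E]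
  {O₁ O₂ O : ValuationSubring F} {ρ : O →+* E} {p : ℕ}

/-- **the slope is computed by any Kummer function which is a unit at `O`** -/
theorem slopeAt_eq_of_val_eq_one [IsAlgClosed L] (hS : SlopeData (L := L) O₁ O₂ O ρ p)
    (P : Place k E) {x : Pic0 L F} {w₀ : F} (hw₀ : IsKummerRep p x w₀)
    (h1 : O.valuation w₀ = 1) : slopeAt O₁ O₂ O ρ p x P = slopeFn O ρ p P w₀ := by
  obtain ⟨w, hw, hU⟩ := hS.exists_rep x hw₀.zsmul_eq_zero
  have h0 := hw.div hw₀
  rw [sub_self] at h0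
  obtain ⟨g, -, hg⟩ := exists_eq_pow_of_isKummerRep_zero hS.const hS.pos h0
  have hww : w = w₀ * g ^ p := by
    rw [← hg]
    field_simp [hw₀.ne_zero]
  have hvw : O.valuation w = 1 := hS.unit_of w hU
  have hvg : O.valuation g = 1 := by
    have h3 : O.valuation g ^ p = 1 := by
      have := congrArg O.valuation hww
      rw [map_mul, h1, hvw, one_mul, map_pow] at this
      exact this.symm
    exact (pow_eq_one_iff_of_nonneg zero_le hS.pos.ne').mp h3
  have hvgp : O.valuation (g ^ p) = 1 := by rw [map_pow, hvg, one_pow]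
  rw [slopeAt_eq hS P hw hU, hww, slopeFn_mul hS.ker p P h1 hvgp, slopeFn_pow_self p P hvg,
    add_zero]

/-- **the slope is computed by `c f` for any Kummer function `f`** and any constant `c` making
`c f` a unit at `O` -/
theorem slopeAt_eq_of_const_mul [IsAlgClosed L] (hS : SlopeData (L := L) O₁ O₂ O ρ p)
    (P : Place k E) {x : Pic0 L F} {f : F} (hf : IsKummerRep p x f) {c : L}
    (hc : O.valuation (algebraMap L F c * f) = 1) :
    slopeAt O₁ O₂ O ρ p x P = slopeFn O ρ p P (algebraMap L F c * f) := by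
  have hc0 : c ≠ 0 := by
    rintro rfl
    rw [map_zero, zero_mul, map_zero] at hc
    exact zero_ne_one hc
  exact slopeAt_eq_of_val_eq_one hS P (hf.const_mul hc0) hc

/-- **(b5)**: the slope at `P` vanishes if reductions of units with divisor in `p Div` have order
divisible by `p` at `P`. -/
theorem slopeAt_eq_zero_of_lit [IsAlgClosed L] (hS : SlopeData (L := L) O₁ O₂ O ρ p)
    (P : Place k E)
    (hlit : ∀ g : F, O.valuation g = 1 → (∀ Q : Place L F, (p : ℤ) ∣ Q.ord g) →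
      (p : ℤ) ∣ P.ord (red O ρ g))
    {x : Pic0 L F} (hx : (p : ℤ) • x = 0) : slopeAt O₁ O₂ O ρ p x P = 0 := by
  obtain ⟨w, hw, hU⟩ := hS.exists_rep x hx
  rw [slopeAt_eq hS P hw hU, slopeFn]
  exact (ZMod.intCast_zmod_eq_zero_iff_dvd _ p).mpr
    (hlit w (hS.unit_of w hU) fun Q => hw.dvd_ord Q)

/-- the slope at `P` is `c` if `ord_P (red g) ≡ c` for the units with divisor in `p Div` -/
theorem slopeAt_eq_of_lit [IsAlgClosed L] (hS : SlopeData (L := L) O₁ O₂ O ρ p)
    (P : Place k E) (c : ZMod p)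
    (hlit : ∀ g : F, UnitTwo O₁ O₂ g → (∀ Q : Place L F, (p : ℤ) ∣ Q.ord g) →
      ((P.ord (red O ρ g) : ℤ) : ZMod p) = c)
    {x : Pic0 L F} (hx : (p : ℤ) • x = 0) : slopeAt O₁ O₂ O ρ p x P = c := by
  obtain ⟨w, hw, hU⟩ := hS.exists_rep x hx
  rw [slopeAt_eq hS P hw hU, slopeFn]
  exact hlit w hU fun Q => hw.dvd_ord Q

/-- **(d)**: the node relation `n_s + n'_s = 0` from its literal. -/
theorem slopeAt_add_eq_zero_of_lit [IsAlgClosed L] {ρ₁ : O₁ →+* E} {ρ₂ : O₂ →+* E}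
    (hD : FlatData (L := L) O₁ O₂ ρ₁ ρ₂ p) (P P' : Place k E)
    (hlit : ∀ g : F, UnitTwo O₁ O₂ g → (∀ Q : Place L F, (p : ℤ) ∣ Q.ord g) →
      (p : ℤ) ∣ P.ord (red O₁ ρ₁ g) + P'.ord (red O₂ ρ₂ g))
    {x : Pic0 L F} (hx : (p : ℤ) • x = 0) :
    slopeAt O₁ O₂ O₁ ρ₁ p x P + slopeAt O₁ O₂ O₂ ρ₂ p x P' = 0 := by
  obtain ⟨w, hw, hU⟩ := hD.S₁.exists_rep x hx
  rw [slopeAt_eq hD.S₁ P hw hU, slopeAt_eq hD.S₂ P' hw hU, slopeFn, slopeFn, ← Int.cast_add]
  exact (ZMod.intCast_zmod_eq_zero_iff_dvd _ p).mpr (hlit w hU fun Q => hw.dvd_ord Q)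

/-! ### The kernel theorem in element form -/

section Kernel

variable [HasPrincipalDivisors k E] {ρ₁ : O₁ →+* E} {ρ₂ : O₂ →+* E}

/-- **(S3), element form**: if the two reductions of ONE unit-normalised Kummer function of `x`
are constants times `p`-th powers, then `x ∈ K₁`. -/
theorem mem_K1_of_red_eq_const_mul_pow [IsAlgClosed L] [IsAlgClosed k]
    (hD : FlatData (L := L) O₁ O₂ ρ₁ ρ₂ p)
    (hconstE : ∀ g : E, g ≠ 0 → (∀ v : Place k E, v.ord g = 0) → ∃ c : k, g = algebraMap k E c)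
    (hSA : ∀ a b : E, ∃ (g : F) (h₁ : g ∈ O₁) (h₂ : g ∈ O₂), ρ₁ ⟨g, h₁⟩ = a ∧ ρ₂ ⟨g, h₂⟩ = b)
    {x : Pic0 L F} {w : F} (hw : IsKummerRep p x w) (hU : UnitTwo O₁ O₂ w)
    {c₁ c₂ : k} {a₁ a₂ : E} (h₁ : red O₁ ρ₁ w = algebraMap k E c₁ * a₁ ^ p)
    (h₂ : red O₂ ρ₂ w = algebraMap k E c₂ * a₂ ^ p) : x ∈ K1 O₁ O₂ ρ₁ ρ₂ p := by
  have hp : p ≠ 0 := hD.S₁.pos.ne'
  have key : ∀ {c : k} {a f : E}, f ≠ 0 → f = algebraMap k E c * a ^ p →
      IsKummerRep p (0 : Pic0 k E) f := by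
    intro c a f hf0 hf
    have hc : c ≠ 0 := by
      rintro rfl
      exact hf0 (by rw [hf, map_zero, zero_mul])
    have ha : a ≠ 0 := by
      rintro rfl
      exact hf0 (by rw [hf, zero_pow hp, mul_zero])
    rw [hf]
    exact (isKummerRep_zero_pow' (L := k) p ha).const_mul hc
  refine (mem_K1_iff_redClass_zero hD hconstE hSA).mpr ⟨⟨w, hw, hU, ?_⟩, ⟨w, hw, hU, ?_⟩⟩
  · exact key (red_ne_zero hD.S₁.ker hU.1) h₁
  · exact key (red_ne_zero hD.S₂.ker hU.2) h₂

/-- conversely, for `x ∈ K₁` BOTH reductions of EVERY unit-normalised Kummer function are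
`p`-th powers -/
theorem exists_red_eq_pow_of_mem_K1 [IsAlgClosed L] [IsAlgClosed k]
    (hD : FlatData (L := L) O₁ O₂ ρ₁ ρ₂ p)
    (hconstE : ∀ g : E, g ≠ 0 → (∀ v : Place k E, v.ord g = 0) → ∃ c : k, g = algebraMap k E c)
    {x : Pic0 L F} (hx : x ∈ K1 O₁ O₂ ρ₁ ρ₂ p) {w : F} (hw : IsKummerRep p x w)
    (hU : UnitTwo O₁ O₂ w) :
    (∃ b : E, b ≠ 0 ∧ red O₁ ρ₁ w = b ^ p) ∧ ∃ b : E, b ≠ 0 ∧ red O₂ ρ₂ w = b ^ p := by
  obtain ⟨h₁, h₂⟩ := redClass_zero_of_mem_K1 (k := k) hx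
  exact ⟨exists_eq_pow_of_isKummerRep_zero hconstE hD.S₁.pos (h₁.of_rep hD.S₁ hw hU),
    exists_eq_pow_of_isKummerRep_zero hconstE hD.S₂.pos (h₂.of_rep hD.S₂ hw hU)⟩

end Kernel

/-! ### The degree relation -/

section Degree

variable [HasPrincipalDivisors k E]

/-- **the slopes of a class sum to zero** (all places of degree one): for every finite set `T` of
places outside of which the slopes vanish. -/
theorem sum_slopeAt_eq_zero [IsAlgClosed L] (hS : SlopeData (L := L) O₁ O₂ O ρ p)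
    (hdeg1 : ∀ P : Place k E, P.deg = 1) {x : Pic0 L F} (hx : (p : ℤ) • x = 0)
    (T : Finset (Place k E)) (hT : ∀ P, P ∉ T → slopeAt O₁ O₂ O ρ p x P = 0) :
    ∑ P ∈ T, slopeAt O₁ O₂ O ρ p x P = 0 := by
  classical
  obtain ⟨D, hdeg, hD⟩ := exists_divisor_slopeAt (k := k) hS hx
  -- the degree of `D` is the sum of its coefficients
  have h1 : Divisor.degree D = ∑ P ∈ D.support, D P := by
    rw [Divisor.degree, Finsupp.liftAddHom_apply, Finsupp.sum]
    refine Finset.sum_congr rfl fun P _ => ?_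
    simp [hdeg1 P]
  have h2 : ∑ P ∈ D.support, ((D P : ℤ) : ZMod p) = 0 := by
    rw [← Int.cast_sum, ← h1, hdeg, Int.cast_zero]
  -- compare both sums with the sum over `T ∪ supp D`
  have h3 : ∑ P ∈ T, slopeAt O₁ O₂ O ρ p x P = ∑ P ∈ T ∪ D.support, ((D P : ℤ) : ZMod p) := by
    rw [Finset.sum_congr rfl fun P _ => (hD P).symm]
    refine Finset.sum_subset Finset.subset_union_left fun P _ hPT => ?_
    rw [hD P]
    exact hT P hPT
  have h4 : ∑ P ∈ D.support, ((D P : ℤ) : ZMod p) = ∑ P ∈ T ∪ D.support, ((D P : ℤ) : ZMod p) := by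
    refine Finset.sum_subset Finset.subset_union_right fun P _ hPD => ?_
    rw [Finsupp.notMem_support_iff.mp hPD, Int.cast_zero]
  rw [h3, ← h4, h2]

/-- **free case of (DIAG)**: a slope vector which is constant `c` on a finite set `T` of places
with `p ∤ #T` and zero elsewhere vanishes. -/
theorem eq_zero_of_diagonal [IsAlgClosed L] (hS : SlopeData (L := L) O₁ O₂ O ρ p)
    (hp : p.Prime) (hdeg1 : ∀ P : Place k E, P.deg = 1) {x : Pic0 L F} (hx : (p : ℤ) • x = 0)
    (T : Finset (Place k E)) (c : ZMod p) (hT : ∀ P, P ∉ T → slopeAt O₁ O₂ O ρ p x P = 0)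
    (hc : ∀ P ∈ T, slopeAt O₁ O₂ O ρ p x P = c) (hcard : ¬ p ∣ T.card) : c = 0 := by
  have : Fact p.Prime := ⟨hp⟩
  have h := sum_slopeAt_eq_zero hS hdeg1 hx T hT
  rw [Finset.sum_congr rfl hc, Finset.sum_const, nsmul_eq_mul] at h
  rcases mul_eq_zero.mp h with h0 | h0
  · exact absurd ((ZMod.natCast_eq_zero_iff _ _).mp h0) hcard
  · exact h0

end Degree


end Fermat.Agent.S40x.Slope.Compute
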