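import Fermat.Agent.S40x.Slope.Xf
import Fermat.Agent.S34x.C0two.Pair

/-!
# P-S44/S40 (R1-S): the hypotheses of `Slope/*` from two `Gateway.C0.RedSetup`s

`R₁ : RedSetup A O₁ k E`, `R₂ : RedSetup A O₂ k E` two residue setups of the valuation subrings
`O₁ O₂` of `F / L` over `A` (at level `M q`: `RedSetupInst.redSetupInfty`, `redSetupZero`), a
SEPARATING element `s ∈ O₁ ⊓ O₂` with reductions `(1, 0)` (`TwoVal/Separating.exists_separating'`),
and the surjectivity of the two residue maps.  Then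

* `liesOver` : `FundEq.LiesOver A O` for a `RedSetup`;
* `exists_pow_mul_lt` : a small element absorbs every element (`v (s ^ n * f) < 1` for `n ≫ 0`);
* `exists_joint_lift` : **strong approximation**, `(R₁.res, R₂.res) : O₁ ⊓ O₂ → E × E` is surjective
  (the hypothesis `hSA` of `Xf.mem_K1_iff_redClass_zero`);
* `twoValData` : `UnitTwo.TwoValData A O₁ O₂`;
* `slopeData₁`, `slopeData₂`, `flatData` : `SlopeInv.SlopeData`, `Xf.FlatData` for `ρᵢ = Rᵢ.res`.
-/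

set_option autoImplicit false
set_option linter.unusedSectionVars false

noncomputable section

namespace Fermat.Agent.S40x.Slope.OfRedSetup

open AlgebraicCurve IsLocalRing Fermat.Agent.Gateway.Kummer Fermat.Agent.Gateway.C0
  Fermat.Agent.S34x.TwoVal.FundEq
  Fermat.Agent.S40x.Slope.UnitTwo Fermat.Agent.S40x.Slope.SlopeInv Fermat.Agent.S40x.Slope.Xf

variable {L : Type*} [Field L] {A : ValuationSubring L} {F : Type*} [Field F] [Algebra L F]
  {k : Type*} [Field k] {E : Type*} [Field E] [Algebra k E]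

section One

variable {O : ValuationSubring F} (R : RedSetup A O k E)
include R

/-- the valuation of a constant of `A` is at most `1` -/
theorem val_algebraMap_le_one (a : A) : O.valuation (algebraMap L F (a : L)) ≤ 1 :=
  (O.valuation_le_one_iff _).mpr (R.algebraMap_mem a)

/-- the valuation of a constant of the maximal ideal of `A` is smaller than `1` -/
theorem val_algebraMap_lt_one {a : A} (ha : a ∈ maximalIdeal A) :
    O.valuation (algebraMap L F (a : L)) < 1 :=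
  R.base.algebraMap_lt a ha

/-- a `RedSetup` lies over `A` -/
theorem liesOver : LiesOver A O := by
  intro e
  refine ⟨fun h => ?_, fun h => R.algebraMap_mem ⟨e, h⟩⟩
  by_contra he
  have h1 : 1 < A.valuation e := by
    rw [← not_le, A.valuation_le_one_iff]
    exact he
  have he0 : e ≠ 0 := by
    rintro rfl
    exact he A.zero_mem
  have h2 : A.valuation e⁻¹ < 1 := by
    rw [map_inv₀]
    exact (inv_lt_one₀ (lt_trans zero_lt_one h1)).mpr h1
  have hmem : e⁻¹ ∈ A := (A.valuation_le_one_iff _).mp h2.le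
  have hmax : (⟨e⁻¹, hmem⟩ : A) ∈ maximalIdeal A := (A.valuation_lt_one_iff _).mpr h2
  have h3 := val_algebraMap_lt_one R hmax
  have h4 : O.valuation (algebraMap L F e) ≤ 1 := (O.valuation_le_one_iff _).mpr h
  have h5 : O.valuation (algebraMap L F e) * O.valuation (algebraMap L F e⁻¹) = 1 := by
    rw [← map_mul, ← map_mul, mul_inv_cancel₀ he0, map_one, map_one]
  have h6 : O.valuation (algebraMap L F e) * O.valuation (algebraMap L F e⁻¹) < 1 :=
    lt_of_le_of_lt (mul_le_of_le_one_left' h4) h3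
  rw [h5] at h6
  exact lt_irrefl _ h6

/-- **a small element absorbs every element**: `v (s ^ n * f) < 1` for some `n`. -/
theorem exists_pow_mul_lt {s : F} (hs : O.valuation s < 1) (f : F) :
    ∃ n : ℕ, O.valuation (s ^ n * f) < 1 := by
  by_cases hf : f = 0
  · exact ⟨0, by rw [hf, mul_zero, map_zero]; exact zero_lt_one⟩
  by_cases hs0 : s = 0
  · exact ⟨1, by rw [hs0, pow_one, zero_mul, map_zero]; exact zero_lt_one⟩
  obtain ⟨c, hc0, hc⟩ := R.scal f hf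
  have hcf : O.valuation (algebraMap L F c) * O.valuation f = 1 := by
    rw [← map_mul, ← Algebra.smul_def]
    exact hc
  rcases A.mem_or_inv_mem c with hcA | hcA
  · -- `c ∈ A`: write `s = ϖ • y` and use the rank one property
    obtain ⟨ϖ, hϖ, y, hy, hsy⟩ := R.base.unram s hs
    have hϖ0 : ϖ ≠ 0 := by
      rintro rfl
      exact hs0 (by rw [hsy, zero_smul])
    have hc0' : (⟨c, hcA⟩ : A) ≠ 0 := fun h => hc0 (congrArg Subtype.val h)
    obtain ⟨j, d, hd⟩ := R.rank_one ϖ hϖ ⟨c, hcA⟩ hc0'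
    refine ⟨j + 1, ?_⟩
    have hd' : ((ϖ : L)) ^ j = c * (d : L) := by
      have := congrArg Subtype.val hd
      simpa using this
    have hsj : s ^ j = algebraMap L F ((ϖ : L) ^ j) * y ^ j := by
      rw [hsy, R.smul_eq, mul_pow, map_pow]
    have hy1 : O.valuation y ≤ 1 := (O.valuation_le_one_iff _).mpr hy
    have e1 : s ^ (j + 1) * f = s * (y ^ j * algebraMap L F (d : L)) * (algebraMap L F c * f) := by
      rw [pow_succ, hsj, hd', map_mul]
      ring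
    rw [e1, map_mul, map_mul _ (algebraMap L F c) f, hcf, mul_one, map_mul]
    have h2 : O.valuation (y ^ j * algebraMap L F (d : L)) ≤ 1 := by
      rw [map_mul, map_pow]
      exact mul_le_one' (pow_le_one₀ zero_le hy1) (val_algebraMap_le_one R d)
    exact lt_of_le_of_lt (mul_le_of_le_one_right' h2) hs
  · -- `c⁻¹ ∈ A`: `v f ≤ 1`
    refine ⟨1, ?_⟩
    have h1 : O.valuation f = O.valuation (algebraMap L F c⁻¹) := by
      have h2 : O.valuation (algebraMap L F c) * O.valuation (algebraMap L F c⁻¹) = 1 := by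
        rw [← map_mul, ← map_mul, mul_inv_cancel₀ hc0, map_one, map_one]
      have h3 : O.valuation (algebraMap L F c) ≠ 0 := by
        intro h0
        rw [h0, zero_mul] at h2
        exact zero_ne_one h2
      exact mul_left_cancel₀ h3 (hcf.trans h2.symm)
    have hf1 : O.valuation f ≤ 1 := by
      rw [h1]
      exact val_algebraMap_le_one R ⟨c⁻¹, hcA⟩
    rw [pow_one, map_mul]
    exact lt_of_le_of_lt (mul_le_of_le_one_right' hf1) hs

/-- an element with nonzero reduction is a unit -/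
theorem val_eq_one_of_res_ne_zero {g : F} (hg : g ∈ O) (h : R.res ⟨g, hg⟩ ≠ 0) :
    O.valuation g = 1 := by
  refine le_antisymm ((O.valuation_le_one_iff g).mpr hg) (not_lt.mp fun hlt => h ?_)
  exact (R.res_ker ⟨g, hg⟩).mpr hlt

/-- an element of valuation `< 1` lies in `O` and has reduction `0` -/
theorem res_eq_zero_of_lt {g : F} (h : O.valuation g < 1) :
    ∃ hg : g ∈ O, R.res ⟨g, hg⟩ = 0 :=
  ⟨(O.valuation_le_one_iff g).mp h.le, (R.res_ker _).mpr h⟩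

end One

section Two

variable {O₁ O₂ : ValuationSubring F} (R₁ : RedSetup A O₁ k E) (R₂ : RedSetup A O₂ k E)
include R₁ R₂

/-- **Strong approximation**: the pair of the two residue maps is surjective on `O₁ ⊓ O₂`. -/
theorem exists_joint_lift (hs₁ : Function.Surjective R₁.res) (hs₂ : Function.Surjective R₂.res)
    {s : F} (hsO₁ : s ∈ O₁) (hsO₂ : s ∈ O₂) (hs1 : R₁.res ⟨s, hsO₁⟩ = 1)
    (hs2 : R₂.res ⟨s, hsO₂⟩ = 0) (a b : E) :
    ∃ (g : F) (h₁ : g ∈ O₁) (h₂ : g ∈ O₂), R₁.res ⟨g, h₁⟩ = a ∧ R₂.res ⟨g, h₂⟩ = b := by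
  obtain ⟨f₁, hf₁⟩ := hs₁ a
  obtain ⟨f₂, hf₂⟩ := hs₂ b
  -- `s` is small at `O₂`, `1 - s` is small at `O₁`
  have hv2 : O₂.valuation s < 1 := (R₂.res_ker ⟨s, hsO₂⟩).mp hs2
  have hv1 : O₁.valuation (1 - s) < 1 := by
    have h1 : R₁.res ⟨1 - s, sub_mem O₁.one_mem hsO₁⟩ = 0 := by
      have e : (⟨1 - s, sub_mem O₁.one_mem hsO₁⟩ : O₁) = 1 - ⟨s, hsO₁⟩ := rfl
      rw [e, map_sub, map_one, hs1, sub_self]
    exact (R₁.res_ker _).mp h1
  obtain ⟨n, hn⟩ := exists_pow_mul_lt R₂ hv2 (f₁ : F)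
  obtain ⟨n', hn'⟩ := exists_pow_mul_lt R₁ hv1 (f₂ : F)
  -- the four memberships
  have m11 : s ^ n * (f₁ : F) ∈ O₁ := mul_mem (pow_mem hsO₁ n) f₁.2
  obtain ⟨m12, r12⟩ := res_eq_zero_of_lt R₂ hn
  obtain ⟨m21, r21⟩ := res_eq_zero_of_lt R₁ hn'
  have hsO₂' : (1 - s) ∈ O₂ := sub_mem O₂.one_mem hsO₂
  have m22 : (1 - s) ^ n' * (f₂ : F) ∈ O₂ := mul_mem (pow_mem hsO₂' n') f₂.2
  have r11 : R₁.res ⟨s ^ n * (f₁ : F), m11⟩ = a := by
    have e : (⟨s ^ n * (f₁ : F), m11⟩ : O₁) = ⟨s, hsO₁⟩ ^ n * f₁ := rfl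
    rw [e, map_mul, map_pow, hs1, one_pow, one_mul, hf₁]
  have r22 : R₂.res ⟨(1 - s) ^ n' * (f₂ : F), m22⟩ = b := by
    have e : (⟨(1 - s) ^ n' * (f₂ : F), m22⟩ : O₂) = (1 - ⟨s, hsO₂⟩) ^ n' * f₂ := rfl
    rw [e, map_mul, map_pow, map_sub, map_one, hs2, sub_zero, one_pow, one_mul, hf₂]
  refine ⟨s ^ n * (f₁ : F) + (1 - s) ^ n' * (f₂ : F), add_mem m11 m21, add_mem m12 m22, ?_, ?_⟩
  · have e : (⟨s ^ n * (f₁ : F) + (1 - s) ^ n' * (f₂ : F), add_mem m11 m21⟩ : O₁) =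
        ⟨s ^ n * (f₁ : F), m11⟩ + ⟨(1 - s) ^ n' * (f₂ : F), m21⟩ := rfl
    rw [e, map_add, r11, r21, add_zero]
  · have e : (⟨s ^ n * (f₁ : F) + (1 - s) ^ n' * (f₂ : F), add_mem m12 m22⟩ : O₂) =
        ⟨s ^ n * (f₁ : F), m12⟩ + ⟨(1 - s) ^ n' * (f₂ : F), m22⟩ := rfl
    rw [e, map_add, r12, r22, zero_add]

/-- the data of `Slope/UnitTwo` -/
theorem twoValData {s : F} (hsO₁ : s ∈ O₁) (hsO₂ : s ∈ O₂) (hs1 : R₁.res ⟨s, hsO₁⟩ = 1)
    (hs2 : R₂.res ⟨s, hsO₂⟩ = 0) : TwoValData A O₁ O₂ where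
  lies₁ := liesOver R₁
  lies₂ := liesOver R₂
  scal₁ := R₁.scal
  scal₂ := R₂.scal
  rank_one := R₁.rank_one
  node := by
    have hv1 : O₁.valuation s = 1 :=
      val_eq_one_of_res_ne_zero R₁ hsO₁ (by rw [hs1]; exact one_ne_zero)
    have hv2 : O₂.valuation s < 1 := (R₂.res_ker ⟨s, hsO₂⟩).mp hs2
    obtain ⟨ϖ, hϖ, y, hy, hsy⟩ := R₂.base.unram s hv2
    have hs0 : s ≠ 0 := by
      rintro rfl
      rw [map_zero] at hv1
      exact zero_ne_one hv1
    have hϖ0 : (ϖ : L) ≠ 0 := by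
      intro h0
      have : ϖ = 0 := Subtype.ext h0
      exact hs0 (by rw [hsy, this, zero_smul])
    refine ⟨s, hv1, (ϖ : L), hϖ0, (A.valuation_lt_one_iff _).mp hϖ, ?_⟩
    have hy1 : O₂.valuation y ≤ 1 := (O₂.valuation_le_one_iff _).mpr hy
    rw [hsy, R₂.smul_eq, map_mul]
    exact mul_le_of_le_one_right' hy1

variable [HasPrincipalDivisors L F]

/-- the slope data at `O₁` -/
theorem slopeData₁ [IsAlgClosed L] {p : ℕ} (hp : 0 < p)
    (hconst : ∀ g : F, g ≠ 0 → (∀ v : Place L F, v.ord g = 0) → ∃ c : L, g = algebraMap L F c)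
    {s : F} (hsO₁ : s ∈ O₁) (hsO₂ : s ∈ O₂) (hs1 : R₁.res ⟨s, hsO₁⟩ = 1)
    (hs2 : R₂.res ⟨s, hsO₂⟩ = 0) : SlopeData (L := L) O₁ O₂ O₁ R₁.res p where
  pos := hp
  unit_of _ h := h.1
  ker := R₁.res_ker
  const := hconst
  exists_rep _ hξ := exists_unitTwo_kummerRep (twoValData R₁ R₂ hsO₁ hsO₂ hs1 hs2) hp hξ

/-- the slope data at `O₂` -/
theorem slopeData₂ [IsAlgClosed L] {p : ℕ} (hp : 0 < p)
    (hconst : ∀ g : F, g ≠ 0 → (∀ v : Place L F, v.ord g = 0) → ∃ c : L, g = algebraMap L F c)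
    {s : F} (hsO₁ : s ∈ O₁) (hsO₂ : s ∈ O₂) (hs1 : R₁.res ⟨s, hsO₁⟩ = 1)
    (hs2 : R₂.res ⟨s, hsO₂⟩ = 0) : SlopeData (L := L) O₁ O₂ O₂ R₂.res p where
  pos := hp
  unit_of _ h := h.2
  ker := R₂.res_ker
  const := hconst
  exists_rep _ hξ := exists_unitTwo_kummerRep (twoValData R₁ R₂ hsO₁ hsO₂ hs1 hs2) hp hξ

/-- the data of `Slope/Xf` -/
theorem flatData [IsAlgClosed L] {p : ℕ} (hp : 0 < p)
    (hconst : ∀ g : F, g ≠ 0 → (∀ v : Place L F, v.ord g = 0) → ∃ c : L, g = algebraMap L F c)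
    {s : F} (hsO₁ : s ∈ O₁) (hsO₂ : s ∈ O₂) (hs1 : R₁.res ⟨s, hsO₁⟩ = 1)
    (hs2 : R₂.res ⟨s, hsO₂⟩ = 0) : FlatData (L := L) O₁ O₂ R₁.res R₂.res p :=
  ⟨slopeData₁ R₁ R₂ hp hconst hsO₁ hsO₂ hs1 hs2, slopeData₂ R₁ R₂ hp hconst hsO₁ hsO₂ hs1 hs2⟩

end Two

end Fermat.Agent.S40x.Slope.OfRedSetup
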