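import Fermat.Agent.S40x.Slope.InstMq

/-!
# P-S44/S40 (R1-S): the slopes and `X^f` over `ℚ̄`, in the vocabulary `KmQb` / `KmTors` / `JTors`

The instance of `Slope/InstMq` over `ℚ̄` for a valuation subring `A` of `ℚ̄` over `q` (residue
field `ResidueField A`), parallel to `S33x/KummerPn.KmQb`, `KmTors`:

* `HQb M₀ q hq hqM A hA` : the `ResidueFacts` used by `KummerPn.KmQb`;
* `slopeInfQb`, `slopeZeroQb` : the slopes of a class of `Pic⁰(F_{M₀ q} / ℚ̄)` at a place of
  `Fk (ResidueField A) M₀`;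
* `XfQb`, `XfTors` : `X^f` in `Pic⁰` and inside `JTors (M₀ q) p`; `mem_XfQb_iff`, `mem_XfTors_iff`,
  `KmQb_le_XfQb`, `KmTors_le_XfTors`, `smul_mem_XfQb`, `galTors_mem_XfTors` (inertia);
* `slopeInfQb_eq`, `slopeZeroQb_eq`, additivity and inertia invariance of the slopes;
* `mem_KmQb_of_red_eq_const_mul_pow` : the kernel theorem in element form.
-/

set_option autoImplicit false
set_option linter.style.haveILetI false
set_option linter.unusedSectionVars false

noncomputable section

namespace Fermat.Agent.S40x.Slope.InstQb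

open ModularCurve AlgebraicCurve IntermediateField IsLocalRing
open Fermat.Agent.Gateway.Hecke Fermat.Agent.Gateway.ESC Fermat.Agent.Gateway.Kummer
open Fermat.Agent.Gateway.Red Fermat.Agent.Gateway.GoodRed
open Fermat.Agent.S34x.TwoVal Fermat.Agent.S34x.C0two
open Fermat.Agent.S34x.Inst.RedSetupInst Fermat.Agent.S34x.Inst
open Fermat.Agent.S33x.KummerPn
open Fermat.Agent.Gateway.S31Red Fermat.Agent.Gateway.Descent
open Fermat.Agent.S40x.Slope.UnitTwo Fermat.Agent.S40x.Slope.SlopeInv Fermat.Agent.S40x.Slope.Xf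
  Fermat.Agent.S40x.Slope.InstMq

local notation "Qb" => AlgebraicClosure ℚ

section Defs

variable (M₀ q : ℕ) [NeZero M₀] [NeZero q] (hq : q.Prime) (hqM : ¬ q ∣ M₀)
  (A : ValuationSubring Qb) (hA : A.LiesOverPrime q)

/-- the slope at a place of the component `C_∞`, over `ℚ̄` -/
def slopeInfQb (p : ℕ) (x : Pic0 Qb (FL Qb (M₀ * q)))
    (P : Place (ResidueField A) (modularFunctionFieldFullC (ResidueField A) M₀)) : ZMod p :=
  haveI : Algebra.IsAlgebraic ℚ Qb := AlgebraicClosure.isAlgebraic ℚ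
  haveI : Fact q.Prime := ⟨hq⟩
  haveI : IsAlgClosed (ResidueField A) := FinalBase.isAlgClosed_residueField A
  haveI : CharP (ResidueField A) q := FinalBase.charP_residueField A hA
  slopeInf (ResidueInst.residueFacts A (residue A) M₀ q (hdegQb M₀ q hq hqM) hq hqM
    (FinalBase.rank_one A hq hA) (FinalBase.residue_surjective A)) hA p x P

/-- the slope at a place of the component `C_0`, over `ℚ̄` -/
def slopeZeroQb (p : ℕ) (x : Pic0 Qb (FL Qb (M₀ * q)))
    (P : Place (ResidueField A) (modularFunctionFieldFullC (ResidueField A) M₀)) : ZMod p :=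
  haveI : Algebra.IsAlgebraic ℚ Qb := AlgebraicClosure.isAlgebraic ℚ
  haveI : Fact q.Prime := ⟨hq⟩
  haveI : IsAlgClosed (ResidueField A) := FinalBase.isAlgClosed_residueField A
  haveI : CharP (ResidueField A) q := FinalBase.charP_residueField A hA
  slopeZero (ResidueInst.residueFacts A (residue A) M₀ q (hdegQb M₀ q hq hqM) hq hqM
    (FinalBase.rank_one A hq hA) (FinalBase.residue_surjective A)) hA p x P

/-- **`X^f` at the level `M₀ q` over `ℚ̄`** -/
def XfQb {p : ℕ} (hp : 0 < p) : AddSubgroup (Pic0 Qb (FL Qb (M₀ * q))) :=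
  haveI : Algebra.IsAlgebraic ℚ Qb := AlgebraicClosure.isAlgebraic ℚ
  haveI : Fact q.Prime := ⟨hq⟩
  haveI : IsAlgClosed (ResidueField A) := FinalBase.isAlgClosed_residueField A
  haveI : CharP (ResidueField A) q := FinalBase.charP_residueField A hA
  XfMq (ResidueInst.residueFacts A (residue A) M₀ q (hdegQb M₀ q hq hqM) hq hqM
    (FinalBase.rank_one A hq hA) (FinalBase.residue_surjective A)) hA hp

/-- **`X^f` inside the `p`-torsion `JTors (M₀ q) p`** -/
def XfTors {p : ℕ} (hp : 0 < p) : AddSubgroup (JTors (M₀ * q) p) :=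
  (XfQb M₀ q hq hqM A hA hp).comap (Pic0.torsion Qb (modularFunctionFieldBar (M₀ * q)) p).subtype

end Defs

variable {M₀ q : ℕ} [NeZero M₀] [NeZero q] {hq : q.Prime} {hqM : ¬ q ∣ M₀}
  {A : ValuationSubring Qb} {hA : A.LiesOverPrime q}

theorem mem_XfQb_iff {p : ℕ} (hp : 0 < p) {x : Pic0 Qb (FL Qb (M₀ * q))} :
    x ∈ XfQb M₀ q hq hqM A hA hp ↔ (p : ℤ) • x = 0 ∧
      ∀ P : Place (ResidueField A) (modularFunctionFieldFullC (ResidueField A) M₀),
        slopeInfQb M₀ q hq hqM A hA p x P = 0 ∧ slopeZeroQb M₀ q hq hqM A hA p x P = 0 :=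
  Iff.rfl

theorem mem_XfTors_iff {p : ℕ} (hp : 0 < p) {x : JTors (M₀ * q) p} :
    x ∈ XfTors M₀ q hq hqM A hA hp ↔ (x : JZero (M₀ * q)) ∈ XfQb M₀ q hq hqM A hA hp := Iff.rfl

/-- membership in `XfTors` = vanishing of all slopes -/
theorem mem_XfTors_iff_slopes {p : ℕ} (hp : 0 < p) {x : JTors (M₀ * q) p} :
    x ∈ XfTors M₀ q hq hqM A hA hp ↔
      ∀ P : Place (ResidueField A) (modularFunctionFieldFullC (ResidueField A) M₀),
        slopeInfQb M₀ q hq hqM A hA p (x : JZero (M₀ * q)) P = 0 ∧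
          slopeZeroQb M₀ q hq hqM A hA p (x : JZero (M₀ * q)) P = 0 := by
  rw [mem_XfTors_iff, mem_XfQb_iff]
  exact ⟨fun h => h.2, fun h => ⟨Pic0.mem_torsion.mp x.2, h⟩⟩

/-- `K_p ⊆ X^f` over `ℚ̄` -/
theorem KmQb_le_XfQb {p : ℕ} (hp : 0 < p) :
    KmQb M₀ q hq hqM A hA p ≤ XfQb M₀ q hq hqM A hA hp := by
  haveI : Algebra.IsAlgebraic ℚ Qb := AlgebraicClosure.isAlgebraic ℚ
  haveI : Fact q.Prime := ⟨hq⟩
  haveI : IsAlgClosed (ResidueField A) := FinalBase.isAlgClosed_residueField A
  haveI : CharP (ResidueField A) q := FinalBase.charP_residueField A hA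
  exact Km_le_XfMq hp

theorem KmTors_le_XfTors {p : ℕ} (hp : 0 < p) :
    KmTors M₀ q hq hqM A hA p ≤ XfTors M₀ q hq hqM A hA hp :=
  fun _ hx => KmQb_le_XfQb hp hx

/-- `X^f` over `ℚ̄` is stable under the inertia group -/
theorem smul_mem_XfQb {p : ℕ} (hp : 0 < p) {τ : Qb ≃ₐ[ℚ] Qb}
    (hτ : τ ∈ A.inertiaSubgroupIn ℚ) {x : Pic0 Qb (FL Qb (M₀ * q))}
    (hx : x ∈ XfQb M₀ q hq hqM A hA hp) : τ • x ∈ XfQb M₀ q hq hqM A hA hp := by
  haveI : Algebra.IsAlgebraic ℚ Qb := AlgebraicClosure.isAlgebraic ℚ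
  haveI : Fact q.Prime := ⟨hq⟩
  haveI : IsAlgClosed (ResidueField A) := FinalBase.isAlgClosed_residueField A
  haveI : CharP (ResidueField A) q := FinalBase.charP_residueField A hA
  exact smul_mem_XfMq hp hτ hx

/-- `XfTors` is stable under the inertia group -/
theorem galTors_mem_XfTors {p : ℕ} (hp : 0 < p) {τ : Qb ≃ₐ[ℚ] Qb}
    (hτ : τ ∈ A.inertiaSubgroupIn ℚ) {x : JTors (M₀ * q) p}
    (hx : x ∈ XfTors M₀ q hq hqM A hA hp) :
    galTors (M₀ * q) p τ x ∈ XfTors M₀ q hq hqM A hA hp := by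
  rw [mem_XfTors_iff, coe_galTors_apply]
  exact smul_mem_XfQb hp hτ hx

/-! ### The slopes -/

/-- the slopes over `ℚ̄` are computed by any Kummer function which is a unit at both valuations -/
theorem slopeInfQb_eq {p : ℕ} (hp : 0 < p) {x : Pic0 Qb (FL Qb (M₀ * q))}
    {w : FL Qb (M₀ * q)} (hw : IsKummerRep p x w) :
    haveI : Algebra.IsAlgebraic ℚ Qb := AlgebraicClosure.isAlgebraic ℚ
    haveI : Fact q.Prime := ⟨hq⟩
    haveI : IsAlgClosed (ResidueField A) := FinalBase.isAlgClosed_residueField A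
    haveI : CharP (ResidueField A) q := FinalBase.charP_residueField A hA
    ∀ (_ : UnitTwo
        (valInfty A (residue A) M₀ q (FinalBase.rank_one A hq hA)
          (FinalBase.residue_surjective A) hqM)
        (valZero A (residue A) M₀ q (hdegQb M₀ q hq hqM) hq hqM (FinalBase.rank_one A hq hA)
          (FinalBase.residue_surjective A)) w)
      (P : Place (ResidueField A) (modularFunctionFieldFullC (ResidueField A) M₀)),
      slopeInfQb M₀ q hq hqM A hA p x P =
        ((P.ord (red (valInfty A (residue A) M₀ q (FinalBase.rank_one A hq hA)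
          (FinalBase.residue_surjective A) hqM)
          (redSetupInfty (ResidueInst.residueFacts A (residue A) M₀ q (hdegQb M₀ q hq hqM) hq hqM
            (FinalBase.rank_one A hq hA) (FinalBase.residue_surjective A)) hA).res w) : ℤ) :
          ZMod p) := by
  intro hU P
  haveI : Algebra.IsAlgebraic ℚ Qb := AlgebraicClosure.isAlgebraic ℚ
  haveI : Fact q.Prime := ⟨hq⟩
  haveI : IsAlgClosed (ResidueField A) := FinalBase.isAlgClosed_residueField A
  haveI : CharP (ResidueField A) q := FinalBase.charP_residueField A hA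
  exact slopeInf_eq hp hw hU P

theorem slopeZeroQb_eq {p : ℕ} (hp : 0 < p) {x : Pic0 Qb (FL Qb (M₀ * q))}
    {w : FL Qb (M₀ * q)} (hw : IsKummerRep p x w) :
    haveI : Algebra.IsAlgebraic ℚ Qb := AlgebraicClosure.isAlgebraic ℚ
    haveI : Fact q.Prime := ⟨hq⟩
    haveI : IsAlgClosed (ResidueField A) := FinalBase.isAlgClosed_residueField A
    haveI : CharP (ResidueField A) q := FinalBase.charP_residueField A hA
    ∀ (_ : UnitTwo
        (valInfty A (residue A) M₀ q (FinalBase.rank_one A hq hA)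
          (FinalBase.residue_surjective A) hqM)
        (valZero A (residue A) M₀ q (hdegQb M₀ q hq hqM) hq hqM (FinalBase.rank_one A hq hA)
          (FinalBase.residue_surjective A)) w)
      (P : Place (ResidueField A) (modularFunctionFieldFullC (ResidueField A) M₀)),
      slopeZeroQb M₀ q hq hqM A hA p x P =
        ((P.ord (red (valZero A (residue A) M₀ q (hdegQb M₀ q hq hqM) hq hqM
          (FinalBase.rank_one A hq hA) (FinalBase.residue_surjective A))
          (redSetupZero (ResidueInst.residueFacts A (residue A) M₀ q (hdegQb M₀ q hq hqM) hq hqM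
            (FinalBase.rank_one A hq hA) (FinalBase.residue_surjective A)) hA).res w) : ℤ) :
          ZMod p) := by
  intro hU P
  haveI : Algebra.IsAlgebraic ℚ Qb := AlgebraicClosure.isAlgebraic ℚ
  haveI : Fact q.Prime := ⟨hq⟩
  haveI : IsAlgClosed (ResidueField A) := FinalBase.isAlgClosed_residueField A
  haveI : CharP (ResidueField A) q := FinalBase.charP_residueField A hA
  exact slopeZero_eq hp hw hU P

theorem slopeInfQb_add {p : ℕ} (hp : 0 < p) {x y : Pic0 Qb (FL Qb (M₀ * q))}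
    (hx : (p : ℤ) • x = 0) (hy : (p : ℤ) • y = 0)
    (P : Place (ResidueField A) (modularFunctionFieldFullC (ResidueField A) M₀)) :
    slopeInfQb M₀ q hq hqM A hA p (x + y) P =
      slopeInfQb M₀ q hq hqM A hA p x P + slopeInfQb M₀ q hq hqM A hA p y P := by
  haveI : Algebra.IsAlgebraic ℚ Qb := AlgebraicClosure.isAlgebraic ℚ
  haveI : Fact q.Prime := ⟨hq⟩
  haveI : IsAlgClosed (ResidueField A) := FinalBase.isAlgClosed_residueField A
  haveI : CharP (ResidueField A) q := FinalBase.charP_residueField A hA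
  exact slopeInf_add hp hx hy P

theorem slopeZeroQb_add {p : ℕ} (hp : 0 < p) {x y : Pic0 Qb (FL Qb (M₀ * q))}
    (hx : (p : ℤ) • x = 0) (hy : (p : ℤ) • y = 0)
    (P : Place (ResidueField A) (modularFunctionFieldFullC (ResidueField A) M₀)) :
    slopeZeroQb M₀ q hq hqM A hA p (x + y) P =
      slopeZeroQb M₀ q hq hqM A hA p x P + slopeZeroQb M₀ q hq hqM A hA p y P := by
  haveI : Algebra.IsAlgebraic ℚ Qb := AlgebraicClosure.isAlgebraic ℚ
  haveI : Fact q.Prime := ⟨hq⟩
  haveI : IsAlgClosed (ResidueField A) := FinalBase.isAlgClosed_residueField A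
  haveI : CharP (ResidueField A) q := FinalBase.charP_residueField A hA
  exact slopeZero_add hp hx hy P

theorem slopeInfQb_neg {p : ℕ} (hp : 0 < p) {x : Pic0 Qb (FL Qb (M₀ * q))}
    (hx : (p : ℤ) • x = 0)
    (P : Place (ResidueField A) (modularFunctionFieldFullC (ResidueField A) M₀)) :
    slopeInfQb M₀ q hq hqM A hA p (-x) P = -slopeInfQb M₀ q hq hqM A hA p x P := by
  haveI : Algebra.IsAlgebraic ℚ Qb := AlgebraicClosure.isAlgebraic ℚ
  haveI : Fact q.Prime := ⟨hq⟩
  haveI : IsAlgClosed (ResidueField A) := FinalBase.isAlgClosed_residueField A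
  haveI : CharP (ResidueField A) q := FinalBase.charP_residueField A hA
  exact slopeInf_neg hp hx P

theorem slopeZeroQb_neg {p : ℕ} (hp : 0 < p) {x : Pic0 Qb (FL Qb (M₀ * q))}
    (hx : (p : ℤ) • x = 0)
    (P : Place (ResidueField A) (modularFunctionFieldFullC (ResidueField A) M₀)) :
    slopeZeroQb M₀ q hq hqM A hA p (-x) P = -slopeZeroQb M₀ q hq hqM A hA p x P := by
  haveI : Algebra.IsAlgebraic ℚ Qb := AlgebraicClosure.isAlgebraic ℚ
  haveI : Fact q.Prime := ⟨hq⟩
  haveI : IsAlgClosed (ResidueField A) := FinalBase.isAlgClosed_residueField A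
  haveI : CharP (ResidueField A) q := FinalBase.charP_residueField A hA
  exact slopeZero_neg hp hx P

/-- **the slopes over `ℚ̄` are invariant under the inertia group** -/
theorem slopeInfQb_smul {p : ℕ} (hp : 0 < p) {τ : Qb ≃ₐ[ℚ] Qb}
    (hτ : τ ∈ A.inertiaSubgroupIn ℚ) {x : Pic0 Qb (FL Qb (M₀ * q))} (hx : (p : ℤ) • x = 0)
    (P : Place (ResidueField A) (modularFunctionFieldFullC (ResidueField A) M₀)) :
    slopeInfQb M₀ q hq hqM A hA p (τ • x) P = slopeInfQb M₀ q hq hqM A hA p x P := by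
  haveI : Algebra.IsAlgebraic ℚ Qb := AlgebraicClosure.isAlgebraic ℚ
  haveI : Fact q.Prime := ⟨hq⟩
  haveI : IsAlgClosed (ResidueField A) := FinalBase.isAlgClosed_residueField A
  haveI : CharP (ResidueField A) q := FinalBase.charP_residueField A hA
  exact slopeInf_smul hτ hp hx P

theorem slopeZeroQb_smul {p : ℕ} (hp : 0 < p) {τ : Qb ≃ₐ[ℚ] Qb}
    (hτ : τ ∈ A.inertiaSubgroupIn ℚ) {x : Pic0 Qb (FL Qb (M₀ * q))} (hx : (p : ℤ) • x = 0)
    (P : Place (ResidueField A) (modularFunctionFieldFullC (ResidueField A) M₀)) :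
    slopeZeroQb M₀ q hq hqM A hA p (τ • x) P = slopeZeroQb M₀ q hq hqM A hA p x P := by
  haveI : Algebra.IsAlgebraic ℚ Qb := AlgebraicClosure.isAlgebraic ℚ
  haveI : Fact q.Prime := ⟨hq⟩
  haveI : IsAlgClosed (ResidueField A) := FinalBase.isAlgClosed_residueField A
  haveI : CharP (ResidueField A) q := FinalBase.charP_residueField A hA
  exact slopeZero_smul hτ hp hx P

/-- a class with all slopes zero lies in `XfTors` (the consumer form of G3 → G4) -/
theorem mem_XfTors_of_slopes {p : ℕ} (hp : 0 < p) {x : JTors (M₀ * q) p}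
    (h : ∀ P : Place (ResidueField A) (modularFunctionFieldFullC (ResidueField A) M₀),
      slopeInfQb M₀ q hq hqM A hA p (x : JZero (M₀ * q)) P = 0 ∧
        slopeZeroQb M₀ q hq hqM A hA p (x : JZero (M₀ * q)) P = 0) :
    x ∈ XfTors M₀ q hq hqM A hA hp :=
  (mem_XfTors_iff_slopes hp).mpr h

end Fermat.Agent.S40x.Slope.InstQb
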