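import Mathlib
import Fermat.Agent.Gateway.Kummer.Basic
import Fermat.Agent.S34x.TwoVal.FundEq

/-!
# P-S40 (research mode, R1-S), (S1): unit normalisation of Kummer functions at two valuations

`L` an algebraically closed field with a valuation subring `A` of rank one, `F` a function field
over `L`, `O₁ O₂` two valuation subrings of `F` lying over `A` with the value group of `A`
(`scal`), and ONE element `u` which is a unit at `O₁` and small at `O₂` (at level `M q`: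
`TwoVal/NodeElt.nodeEltZero`).  Then:

* `exists_val_pow_eq` : for every nonzero `δ ∈ 𝔪_A` and `m > 0` there is `g ∈ F` with `v₁ g = 1` and
  `(v₂ g) ^ m = v₂ δ` (the group `{v₂ g / v₁ g}` is the whole value group, which is divisible);
* `exists_unitTwo` : every nonzero `w₀ ∈ F` becomes a unit at BOTH valuations after multiplication
  by a constant and an `m`-th power;
* `exists_unitTwo_kummerRep` : every `m`-torsion class of `Pic⁰` has a Kummer function which is a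
  unit at both valuations (no component-group obstruction over an algebraically closed base).
-/

set_option autoImplicit false
set_option linter.dupNamespace false

noncomputable section

namespace Fermat.Agent.S40x.Slope.UnitTwo

open AlgebraicCurve Fermat.Agent.Gateway.Kummer Fermat.Agent.S34x.TwoVal.FundEq IsLocalRing

variable {L : Type*} [Field L] {F : Type*} [Field F] [Algebra L F]

/-- `w` is a unit at both valuations. -/
def UnitTwo (O₁ O₂ : ValuationSubring F) (w : F) : Prop :=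
  O₁.valuation w = 1 ∧ O₂.valuation w = 1

theorem UnitTwo.ne_zero {O₁ O₂ : ValuationSubring F} {w : F} (h : UnitTwo O₁ O₂ w) : w ≠ 0 := by
  rintro rfl
  have := h.1
  rw [map_zero] at this
  exact zero_ne_one this

theorem UnitTwo.mul {O₁ O₂ : ValuationSubring F} {w w' : F} (h : UnitTwo O₁ O₂ w)
    (h' : UnitTwo O₁ O₂ w') : UnitTwo O₁ O₂ (w * w') :=
  ⟨by rw [map_mul, h.1, h'.1, one_mul], by rw [map_mul, h.2, h'.2, one_mul]⟩

theorem UnitTwo.inv {O₁ O₂ : ValuationSubring F} {w : F} (h : UnitTwo O₁ O₂ w) :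
    UnitTwo O₁ O₂ w⁻¹ :=
  ⟨by rw [map_inv₀, h.1, inv_one], by rw [map_inv₀, h.2, inv_one]⟩

theorem UnitTwo.pow {O₁ O₂ : ValuationSubring F} {w : F} (h : UnitTwo O₁ O₂ w) (n : ℕ) :
    UnitTwo O₁ O₂ (w ^ n) :=
  ⟨by rw [map_pow, h.1, one_pow], by rw [map_pow, h.2, one_pow]⟩

theorem unitTwo_one {O₁ O₂ : ValuationSubring F} : UnitTwo O₁ O₂ (1 : F) :=
  ⟨map_one _, map_one _⟩

theorem UnitTwo.mem₁ {O₁ O₂ : ValuationSubring F} {w : F} (h : UnitTwo O₁ O₂ w) : w ∈ O₁ :=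
  (O₁.valuation_le_one_iff w).mp h.1.le

theorem UnitTwo.mem₂ {O₁ O₂ : ValuationSubring F} {w : F} (h : UnitTwo O₁ O₂ w) : w ∈ O₂ :=
  (O₂.valuation_le_one_iff w).mp h.2.le

/-- The data of two valuations of `F` over `A` with the same value group and a separating
element. -/
structure TwoValData (A : ValuationSubring L) (O₁ O₂ : ValuationSubring F) : Prop where
  lies₁ : LiesOver A O₁
  lies₂ : LiesOver A O₂
  scal₁ : ∀ f : F, f ≠ 0 → ∃ c : L, c ≠ 0 ∧ O₁.valuation (c • f) = 1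
  scal₂ : ∀ f : F, f ≠ 0 → ∃ c : L, c ≠ 0 ∧ O₂.valuation (c • f) = 1
  rank_one : ∀ x ∈ maximalIdeal A, ∀ c : A, c ≠ 0 → ∃ j : ℕ, c ∣ x ^ j
  /-- an element which is a unit at `O₁` and small at `O₂` -/
  node : ∃ u : F, O₁.valuation u = 1 ∧ ∃ ϖ₀ : L, ϖ₀ ≠ 0 ∧ A.valuation ϖ₀ < 1 ∧
    O₂.valuation u ≤ O₂.valuation (algebraMap L F ϖ₀)

variable {A : ValuationSubring L} {O₁ O₂ : ValuationSubring F}

/-- **The value group of `v₂ / v₁` is everything**: for every nonzero `δ ∈ 𝔪_A` and `m > 0` there is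
`g` with `v₁ g = 1` and `(v₂ g) ^ m = v₂ δ`. -/
theorem exists_val_pow_eq [IsAlgClosed L] (hD : TwoValData A O₁ O₂) {δ : L} (hδ0 : δ ≠ 0)
    (hδ : A.valuation δ < 1) {m : ℕ} (hm : 0 < m) :
    ∃ g : F, g ≠ 0 ∧ O₁.valuation g = 1 ∧ O₂.valuation g ^ m = O₂.valuation (algebraMap L F δ) := by
  obtain ⟨u, hu1, ϖ₀, hϖ₀0, hϖ₀, hu2⟩ := hD.node
  -- rank one: `δ ∣ ϖ₀ ^ j`
  have hϖ₀A : ϖ₀ ∈ A := (A.valuation_le_one_iff ϖ₀).mp hϖ₀.le
  have hδA : δ ∈ A := (A.valuation_le_one_iff δ).mp hδ.le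
  have hϖ₀m : (⟨ϖ₀, hϖ₀A⟩ : A) ∈ maximalIdeal A :=
    (A.valuation_lt_one_iff ⟨ϖ₀, hϖ₀A⟩).mpr hϖ₀
  have hδne : (⟨δ, hδA⟩ : A) ≠ 0 := fun h => hδ0 (congrArg Subtype.val h)
  obtain ⟨j, a, ha⟩ := hD.rank_one _ hϖ₀m ⟨δ, hδA⟩ hδne
  have hj : ϖ₀ ^ j = δ * (a : L) := by
    have := congrArg (Subtype.val : A → L) ha
    simpa using this
  have hvj : A.valuation ϖ₀ ^ j ≤ A.valuation δ := by
    rw [← map_pow, hj, map_mul]
    calc A.valuation δ * A.valuation (a : L) ≤ A.valuation δ * 1 := by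
          gcongr
          exact (A.valuation_le_one_iff _).mpr a.2
      _ = A.valuation δ := mul_one _
  -- the root `ϖ`
  set N : ℕ := j + 1 with hN
  have hmN : 0 < m * N := Nat.mul_pos hm (Nat.succ_pos j)
  obtain ⟨ϖ, hϖ⟩ := IsAlgClosed.exists_pow_nat_eq δ hmN
  have hϖ0 : ϖ ≠ 0 := by
    rintro rfl
    rw [zero_pow hmN.ne'] at hϖ
    exact hδ0 hϖ.symm
  have hvϖ0 : A.valuation ϖ ≠ 0 := (Valuation.ne_zero_iff _).mpr hϖ0
  have hvϖ₀0 : A.valuation ϖ₀ ≠ 0 := (Valuation.ne_zero_iff _).mpr hϖ₀0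
  have hϖlt : A.valuation ϖ < 1 := by
    by_contra h
    rw [not_lt] at h
    have : 1 ≤ A.valuation ϖ ^ (m * N) := one_le_pow_of_one_le' h _
    rw [← map_pow, hϖ] at this
    exact absurd hδ (not_lt.mpr this)
  -- `v ϖ₀ < v ϖ`
  have hlt : A.valuation ϖ₀ < A.valuation ϖ := by
    by_contra h
    rw [not_lt] at h
    have h1 : A.valuation δ ≤ A.valuation ϖ₀ ^ (m * N) := by
      rw [← hϖ, map_pow]
      exact pow_le_pow_left' h _
    have h2 : A.valuation ϖ₀ ^ (m * N) ≤ A.valuation ϖ₀ ^ N :=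
      pow_le_pow_right_of_le_one' hϖ₀.le (Nat.le_mul_of_pos_left N hm)
    have h3 : A.valuation ϖ₀ ^ N < A.valuation ϖ₀ ^ j := by
      rw [hN, pow_succ]
      calc A.valuation ϖ₀ ^ j * A.valuation ϖ₀ < A.valuation ϖ₀ ^ j * 1 := by
            exact mul_lt_mul_of_pos_left hϖ₀ (pow_pos (zero_lt_iff.mpr hvϖ₀0) j)
        _ = A.valuation ϖ₀ ^ j := mul_one _
    exact absurd (lt_of_le_of_lt (h1.trans h2) h3) (not_lt.mpr hvj)
  -- the element `u - ϖ`
  set g₀ : F := u - algebraMap L F ϖ with hg₀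
  have h1ϖ : O₁.valuation (algebraMap L F ϖ) < 1 := (hD.lies₁.lt_one_iff ϖ).mpr hϖlt
  have hg₀1 : O₁.valuation g₀ = 1 := by
    rw [hg₀, Valuation.map_sub_eq_of_lt_left _ (by rw [hu1]; exact h1ϖ), hu1]
  have h2lt : O₂.valuation u < O₂.valuation (algebraMap L F ϖ) :=
    lt_of_le_of_lt hu2 ((hD.lies₂.lt_iff ϖ₀ ϖ).mpr hlt)
  have hg₀2 : O₂.valuation g₀ = O₂.valuation (algebraMap L F ϖ) := by
    rw [hg₀, Valuation.map_sub_eq_of_lt_right _ h2lt]
  refine ⟨g₀ ^ N, ?_, by rw [map_pow, hg₀1, one_pow], ?_⟩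
  · apply pow_ne_zero
    intro h0
    rw [h0, map_zero] at hg₀1
    exact zero_ne_one hg₀1
  · rw [map_pow, hg₀2, ← pow_mul, ← map_pow, ← map_pow, mul_comm N m, hϖ]

/-- **Unit normalisation at two valuations**: every nonzero `w₀` is a unit at both valuations after
multiplication by a nonzero constant and by an `m`-th power. -/
theorem exists_unitTwo [IsAlgClosed L] (hD : TwoValData A O₁ O₂) {m : ℕ} (hm : 0 < m) {w₀ : F}
    (hw₀ : w₀ ≠ 0) :
    ∃ (c : L) (g : F), c ≠ 0 ∧ g ≠ 0 ∧ UnitTwo O₁ O₂ (algebraMap L F c * w₀ * g ^ m) := by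
  obtain ⟨c₁, hc₁, h1⟩ := hD.scal₁ w₀ hw₀
  obtain ⟨c₂, hc₂, h2⟩ := hD.scal₂ w₀ hw₀
  rw [Algebra.smul_def] at h1 h2
  set γ : L := c₁ / c₂ with hγ
  have hγ0 : γ ≠ 0 := div_ne_zero hc₁ hc₂
  have hc₁γ : c₁ = γ * c₂ := by rw [hγ]; field_simp
  -- `v₂ (c₁ w₀) = v₂ γ`
  have h2' : O₂.valuation (algebraMap L F c₁ * w₀) = O₂.valuation (algebraMap L F γ) := by
    rw [hc₁γ, (algebraMap L F).map_mul, mul_assoc, O₂.valuation.map_mul, h2, mul_one]
  rcases lt_trichotomy (A.valuation γ) 1 with hlt | heq | hgt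
  · -- `γ` small: divide by `g ^ m`
    obtain ⟨g, hg0, hg1, hg2⟩ := exists_val_pow_eq hD hγ0 hlt hm
    refine ⟨c₁, g⁻¹, hc₁, inv_ne_zero hg0, ?_, ?_⟩
    · rw [map_mul, h1, one_mul, map_pow, map_inv₀, hg1, inv_one, one_pow]
    · rw [map_mul, h2', map_pow, map_inv₀, inv_pow, hg2]
      exact mul_inv_cancel₀ ((Valuation.ne_zero_iff _).mpr ((map_ne_zero _).mpr hγ0))
  · -- `γ` a unit
    refine ⟨c₁, 1, hc₁, one_ne_zero, ?_, ?_⟩
    · rw [one_pow, mul_one, h1]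
    · rw [one_pow, mul_one, h2']
      exact (hD.lies₂.eq_one_iff γ).mpr heq
  · -- `γ⁻¹` small: multiply by `g ^ m`
    have hlt : A.valuation γ⁻¹ < 1 := by
      rw [map_inv₀]
      exact inv_lt_one_of_one_lt₀ hgt
    obtain ⟨g, hg0, hg1, hg2⟩ := exists_val_pow_eq hD (inv_ne_zero hγ0) hlt hm
    refine ⟨c₁, g, hc₁, hg0, ?_, ?_⟩
    · rw [map_mul, h1, one_mul, map_pow, hg1, one_pow]
    · rw [map_mul, h2', map_pow, hg2, ← map_mul, ← map_mul, mul_inv_cancel₀ hγ0, map_one, map_one]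

/-! ### Kummer functions -/

section Kummer

variable [HasPrincipalDivisors L F]

/-- `m`-th powers are Kummer representatives of the trivial class. -/
theorem isKummerRep_zero_pow' (m : ℕ) {f : F} (hf : f ≠ 0) :
    IsKummerRep m (0 : Pic0 L F) (f ^ m) := by
  obtain ⟨D, hD, hdeg⟩ := HasPrincipalDivisors.exists_divisor (K := L) f hf
  refine ⟨pow_ne_zero _ hf, ⟨D, hdeg⟩, ?_, fun P => ?_⟩
  · rw [mk_eq_zero_iff]
    exact ⟨f, hf, hD⟩
  · show (m : ℤ) * D P = P.ord (f ^ m)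
    rw [hD P, ← zpow_natCast, P.ord_zpow]

/-- **(S1)**: every `m`-torsion class has a Kummer function which is a unit at both valuations. -/
theorem exists_unitTwo_kummerRep [IsAlgClosed L] (hD : TwoValData A O₁ O₂) {m : ℕ} (hm : 0 < m)
    {ξ : Pic0 L F} (hξ : (m : ℤ) • ξ = 0) :
    ∃ w : F, IsKummerRep m ξ w ∧ UnitTwo O₁ O₂ w := by
  obtain ⟨w₀, hw₀⟩ := exists_isKummerRep hξ
  obtain ⟨c, g, hc, hg, hU⟩ := exists_unitTwo hD hm hw₀.ne_zero
  refine ⟨algebraMap L F c * w₀ * g ^ m, ?_, hU⟩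
  have h := (hw₀.const_mul hc).mul (isKummerRep_zero_pow' (L := L) m hg)
  rwa [add_zero] at h

end Kummer

end Fermat.Agent.S40x.Slope.UnitTwo
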