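import Fermat.Agent.S40x.Slope.SlopeInv

/-!
# P-S40 (research mode, R1-S), (S3): the subgroup `X^f` of the classes with vanishing slopes

Setting of `Slope/SlopeInv`, with BOTH residue maps `ρ₁ : O₁ →+* E`, `ρ₂ : O₂ →+* E`.

* `K1 O₁ O₂ ρ₁ ρ₂ p` : the classes with a Kummer function of exponent `p` which is a unit at both
  valuations with reductions `(1, 1)` (`= KummerPn.Km` at level `M q`);
* `Xf k hD` : the `p`-torsion classes all of whose slopes (at both components) vanish; `K1_le_Xf`;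
* `RedClass O₁ O₂ O ρ p ξ η` : `η ∈ Pic⁰(E)` is the image of `ξ`: the reduction of a unit-normalised
  Kummer function of `ξ` is a Kummer function of `η`.  `RedClass.of_rep` (independence of the
  Kummer function), `RedClass.unique`, `RedClass.add`, `RedClass.neg`, `redClass_zero`,
  `exists_redClass_of_mem_Xf` (the map `θ_O : X^f → Pic⁰(E)[p]` is defined on `X^f`),
  `slopeAt_eq_zero_of_redClass` (and only there);
* `mem_K1_of_redClass_zero` **(S3, kernel)** : if both images vanish then `ξ ∈ K1`: the kernel of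
  `(θ₁, θ₂) : X^f → Pic⁰(E)[p] × Pic⁰(E)[p]` is exactly `K1` (`redClass_zero_of_mem_K1` for the
  converse).  Inputs: strong approximation for `(ρ₁, ρ₂)` and `k` algebraically closed;
* `smul_mem_Xf` : `X^f` is stable under the semilinear automorphisms preserving the two valuation
  rings and acting trivially on both reductions.
-/

set_option autoImplicit false
set_option linter.unusedSectionVars false

noncomputable section

namespace Fermat.Agent.S40x.Slope.Xf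

open AlgebraicCurve Fermat.Agent.Gateway.Kummer Fermat.Agent.S40x.Slope.UnitTwo
  Fermat.Agent.S40x.Slope.SlopeInv

variable {L : Type*} [Field L] {F : Type*} [Field F] [Algebra L F] [HasPrincipalDivisors L F]
  {k : Type*} [Field k] {E : Type*} [Field E] [Algebra k E] [HasPrincipalDivisors k E]
  {O₁ O₂ : ValuationSubring F} {ρ₁ : O₁ →+* E} {ρ₂ : O₂ →+* E} {p : ℕ}

/-- slope data at both valuations -/
structure FlatData (O₁ O₂ : ValuationSubring F) (ρ₁ : O₁ →+* E) (ρ₂ : O₂ →+* E) (p : ℕ) :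
    Prop where
  S₁ : SlopeData (L := L) O₁ O₂ O₁ ρ₁ p
  S₂ : SlopeData (L := L) O₁ O₂ O₂ ρ₂ p

/-! ### `K₁` and `X^f` -/

/-- **`K₁`**: the classes with a Kummer function which is a unit at both valuations with
reductions `(1, 1)`. -/
def K1 (O₁ O₂ : ValuationSubring F) (ρ₁ : O₁ →+* E) (ρ₂ : O₂ →+* E) (p : ℕ) :
    AddSubgroup (Pic0 L F) where
  carrier := {ξ | ∃ w : F, IsKummerRep p ξ w ∧ UnitTwo O₁ O₂ w ∧ red O₁ ρ₁ w = 1 ∧
    red O₂ ρ₂ w = 1}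
  zero_mem' := ⟨1, isKummerRep_zero_one p, unitTwo_one, red_one, red_one⟩
  add_mem' := by
    rintro x y ⟨w, hw, hU, h1, h2⟩ ⟨w', hw', hU', h1', h2'⟩
    refine ⟨w * w', hw.mul hw', hU.mul hU', ?_, ?_⟩
    · rw [red_mul hU.mem₁ hU'.mem₁, h1, h1', one_mul]
    · rw [red_mul hU.mem₂ hU'.mem₂, h2, h2', one_mul]
  neg_mem' := by
    rintro x ⟨w, hw, hU, h1, h2⟩
    refine ⟨w⁻¹, hw.inv, hU.inv, ?_, ?_⟩
    · rw [red_inv hU.1, h1, inv_one]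
    · rw [red_inv hU.2, h2, inv_one]

theorem mem_K1_iff {ξ : Pic0 L F} : ξ ∈ K1 O₁ O₂ ρ₁ ρ₂ p ↔
    ∃ w : F, IsKummerRep p ξ w ∧ UnitTwo O₁ O₂ w ∧ red O₁ ρ₁ w = 1 ∧ red O₂ ρ₂ w = 1 := Iff.rfl

/-- **`X^f`**: the `p`-torsion classes all of whose slopes vanish. -/
def Xf (k : Type*) [Field k] [Algebra k E] [IsAlgClosed L]
    (hD : FlatData (L := L) O₁ O₂ ρ₁ ρ₂ p) : AddSubgroup (Pic0 L F) where
  carrier := {ξ | (p : ℤ) • ξ = 0 ∧ ∀ P : Place k E,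
    slopeAt O₁ O₂ O₁ ρ₁ p ξ P = 0 ∧ slopeAt O₁ O₂ O₂ ρ₂ p ξ P = 0}
  zero_mem' := ⟨smul_zero _, fun P => ⟨slopeAt_zero hD.S₁ P, slopeAt_zero hD.S₂ P⟩⟩
  add_mem' := by
    rintro x y ⟨hx, hx'⟩ ⟨hy, hy'⟩
    refine ⟨by rw [zsmul_add, hx, hy, add_zero], fun P => ⟨?_, ?_⟩⟩
    · rw [slopeAt_add hD.S₁ P hx hy, (hx' P).1, (hy' P).1, add_zero]
    · rw [slopeAt_add hD.S₂ P hx hy, (hx' P).2, (hy' P).2, add_zero]
  neg_mem' := by
    rintro x ⟨hx, hx'⟩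
    refine ⟨by rw [zsmul_neg, hx, neg_zero], fun P => ⟨?_, ?_⟩⟩
    · rw [slopeAt_neg hD.S₁ P hx, (hx' P).1, neg_zero]
    · rw [slopeAt_neg hD.S₂ P hx, (hx' P).2, neg_zero]

theorem mem_Xf_iff [IsAlgClosed L] {hD : FlatData (L := L) O₁ O₂ ρ₁ ρ₂ p} {ξ : Pic0 L F} :
    ξ ∈ Xf k hD ↔ (p : ℤ) • ξ = 0 ∧ ∀ P : Place k E,
      slopeAt O₁ O₂ O₁ ρ₁ p ξ P = 0 ∧ slopeAt O₁ O₂ O₂ ρ₂ p ξ P = 0 := Iff.rfl

/-- `K₁ ⊆ X^f` -/
theorem K1_le_Xf [IsAlgClosed L] (hD : FlatData (L := L) O₁ O₂ ρ₁ ρ₂ p) :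
    K1 O₁ O₂ ρ₁ ρ₂ p ≤ Xf k hD := by
  rintro ξ ⟨w, hw, hU, h1, h2⟩
  refine ⟨hw.zsmul_eq_zero, fun P => ⟨?_, ?_⟩⟩
  · rw [slopeAt_eq hD.S₁ P hw hU, slopeFn, h1, Place.ord_one, Int.cast_zero]
  · rw [slopeAt_eq hD.S₂ P hw hU, slopeFn, h2, Place.ord_one, Int.cast_zero]

/-- `X^f` is stable under the semilinear automorphisms preserving both valuation rings and acting
trivially on both reductions (the inertia group). -/
theorem smul_mem_Xf [IsAlgClosed L] (hD : FlatData (L := L) O₁ O₂ ρ₁ ρ₂ p)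
    (g : SemilinearAut L F) (hg₁ : ∀ f ∈ O₁, g • f ∈ O₁) (hg₂ : ∀ f ∈ O₂, g • f ∈ O₂)
    (hres₁ : ∀ (f : F) (hf : f ∈ O₁), ρ₁ ⟨g • f, hg₁ f hf⟩ = ρ₁ ⟨f, hf⟩)
    (hres₂ : ∀ (f : F) (hf : f ∈ O₂), ρ₂ ⟨g • f, hg₂ f hf⟩ = ρ₂ ⟨f, hf⟩)
    {ξ : Pic0 L F} (hξ : ξ ∈ Xf k hD) : g • ξ ∈ Xf k hD := by
  obtain ⟨h0, h1⟩ := hξ
  have hcomm : (p : ℤ) • (g • ξ) = g • ((p : ℤ) • ξ) :=
    (map_zsmul (DistribMulAction.toAddMonoidHom (Pic0 L F) g) (p : ℤ) ξ).symm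
  refine ⟨by rw [hcomm, h0]; exact map_zero (DistribMulAction.toAddMonoidHom (Pic0 L F) g),
    fun P => ⟨?_, ?_⟩⟩
  · rw [slopeAt_smul hD.S₁ P g hg₁ hg₂ hg₁ hres₁ h0]
    exact (h1 P).1
  · rw [slopeAt_smul hD.S₂ P g hg₁ hg₂ hg₂ hres₂ h0]
    exact (h1 P).2

/-! ### The reduction of a class of `X^f` -/

section RedClass

variable {O : ValuationSubring F} {ρ : O →+* E}

/-- `η` is the image of `ξ` at the valuation `O`: the reduction of some unit-normalised Kummer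
function of `ξ` is a Kummer function of `η`. -/
def RedClass (O₁ O₂ O : ValuationSubring F) (ρ : O →+* E) (p : ℕ) (ξ : Pic0 L F)
    (η : Pic0 k E) : Prop :=
  ∃ w : F, IsKummerRep p ξ w ∧ UnitTwo O₁ O₂ w ∧ IsKummerRep p η (red O ρ w)

/-- independence of the unit-normalised Kummer function -/
theorem RedClass.of_rep [IsAlgClosed L] (hS : SlopeData (L := L) O₁ O₂ O ρ p) {ξ : Pic0 L F}
    {η : Pic0 k E} (h : RedClass O₁ O₂ O ρ p ξ η) {w : F} (hw : IsKummerRep p ξ w)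
    (hU : UnitTwo O₁ O₂ w) : IsKummerRep p η (red O ρ w) := by
  obtain ⟨w₀, hw₀, hU₀, hη⟩ := h
  obtain ⟨g, hg, rfl⟩ := exists_eq_mul_pow hS.const hS.pos hw₀ hw hU₀ hU
  have h1 := hS.unit_of w₀ hU₀
  have h2 := hS.unit_of g hg
  rw [red_mul (mem_of_val_eq_one h1) (pow_mem (mem_of_val_eq_one h2) p),
    red_pow (mem_of_val_eq_one h2)]
  have := hη.mul (isKummerRep_zero_pow' (L := k) p (red_ne_zero hS.ker h2))
  rwa [add_zero] at this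

theorem RedClass.unique [IsAlgClosed L] (hS : SlopeData (L := L) O₁ O₂ O ρ p) {ξ : Pic0 L F}
    {η η' : Pic0 k E} (h : RedClass O₁ O₂ O ρ p ξ η) (h' : RedClass O₁ O₂ O ρ p ξ η') :
    η = η' := by
  obtain ⟨w, hw, hU, hη'⟩ := h'
  have hη := h.of_rep hS hw hU
  have h0 := hη.div hη'
  have hne : red O ρ w ≠ 0 := hη.ne_zero
  rw [div_self hne] at h0
  have := h0.eq_zero_of_eq_pow hS.pos.ne' (w := 1) (one_pow p).symm
  exact sub_eq_zero.mp this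

theorem redClass_zero (hp : 0 < p) :
    RedClass (L := L) (k := k) O₁ O₂ O ρ p (0 : Pic0 L F) (0 : Pic0 k E) :=
  ⟨1, isKummerRep_zero_one p, unitTwo_one, by rw [red_one]; exact isKummerRep_zero_one p⟩

theorem RedClass.add (hS : SlopeData (L := L) O₁ O₂ O ρ p) {ξ ξ' : Pic0 L F} {η η' : Pic0 k E}
    (h : RedClass O₁ O₂ O ρ p ξ η) (h' : RedClass O₁ O₂ O ρ p ξ' η') :
    RedClass O₁ O₂ O ρ p (ξ + ξ') (η + η') := by
  obtain ⟨w, hw, hU, hη⟩ := h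
  obtain ⟨w', hw', hU', hη'⟩ := h'
  refine ⟨w * w', hw.mul hw', hU.mul hU', ?_⟩
  rw [red_mul (mem_of_val_eq_one (hS.unit_of w hU)) (mem_of_val_eq_one (hS.unit_of w' hU'))]
  exact hη.mul hη'

theorem RedClass.neg (hS : SlopeData (L := L) O₁ O₂ O ρ p) {ξ : Pic0 L F} {η : Pic0 k E}
    (h : RedClass O₁ O₂ O ρ p ξ η) : RedClass O₁ O₂ O ρ p (-ξ) (-η) := by
  obtain ⟨w, hw, hU, hη⟩ := h
  refine ⟨w⁻¹, hw.inv, hU.inv, ?_⟩
  rw [red_inv (hS.unit_of w hU)]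
  exact hη.inv

/-- the image is `p`-torsion -/
theorem RedClass.zsmul_eq_zero {ξ : Pic0 L F} {η : Pic0 k E}
    (h : RedClass O₁ O₂ O ρ p ξ η) : (p : ℤ) • η = 0 := by
  obtain ⟨w, -, -, hη⟩ := h
  exact hη.zsmul_eq_zero

/-- a class with an image has vanishing slopes -/
theorem slopeAt_eq_zero_of_redClass [IsAlgClosed L] (hS : SlopeData (L := L) O₁ O₂ O ρ p)
    {ξ : Pic0 L F} {η : Pic0 k E} (h : RedClass O₁ O₂ O ρ p ξ η) (P : Place k E) :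
    slopeAt O₁ O₂ O ρ p ξ P = 0 := by
  obtain ⟨w, hw, hU, hη⟩ := h
  rw [slopeAt_eq hS P hw hU, slopeFn]
  exact (ZMod.intCast_zmod_eq_zero_iff_dvd _ p).mpr (hη.dvd_ord P)

/-- **the map `θ_O` is defined on the classes with vanishing slopes**: the divisor of the
reduction of a unit-normalised Kummer function is divisible by `p`. -/
theorem exists_redClass_of_slopeAt_eq_zero [IsAlgClosed L]
    (hS : SlopeData (L := L) O₁ O₂ O ρ p) {ξ : Pic0 L F} (hξ : (p : ℤ) • ξ = 0)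
    (h0 : ∀ P : Place k E, slopeAt O₁ O₂ O ρ p ξ P = 0) :
    ∃ η : Pic0 k E, RedClass O₁ O₂ O ρ p ξ η := by
  have hp' : (p : ℤ) ≠ 0 := by exact_mod_cast hS.pos.ne'
  obtain ⟨w, hw, hU⟩ := hS.exists_rep ξ hξ
  have hne : red O ρ w ≠ 0 := red_ne_zero hS.ker (hS.unit_of w hU)
  obtain ⟨D₀, hD₀, hdeg⟩ := HasPrincipalDivisors.exists_divisor (K := k) (red O ρ w) hne
  have hdvd : ∀ P : Place k E, (p : ℤ) ∣ D₀ P := by
    intro P
    have := h0 P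
    rw [slopeAt_eq hS P hw hU, slopeFn] at this
    rw [hD₀ P]
    exact (ZMod.intCast_zmod_eq_zero_iff_dvd _ p).mp this
  -- `D := D₀ / p`
  set D : Divisor k E := Finsupp.mapRange (fun n : ℤ => n / (p : ℤ)) (by simp) D₀ with hDdef
  have hDP : ∀ P : Place k E, (p : ℤ) * D P = D₀ P := by
    intro P
    rw [hDdef, Finsupp.mapRange_apply]
    exact Int.mul_ediv_cancel' (hdvd P)
  have hsm : (p : ℤ) • D = D₀ := by
    ext P
    rw [Finsupp.smul_apply, smul_eq_mul, hDP P]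
  have hdegD : Divisor.degree D = 0 := by
    have := congrArg Divisor.degree hsm
    rw [map_zsmul, hdeg, smul_eq_mul] at this
    exact (mul_eq_zero.mp this).resolve_left hp'
  refine ⟨Pic0.mk ⟨D, hdegD⟩, w, hw, hU, hne, ⟨D, hdegD⟩, rfl, fun P => ?_⟩
  show (p : ℤ) * D P = P.ord (red O ρ w)
  rw [hDP P, hD₀ P]

end RedClass

theorem exists_redClass_of_mem_Xf [IsAlgClosed L] (hD : FlatData (L := L) O₁ O₂ ρ₁ ρ₂ p)
    {ξ : Pic0 L F} (hξ : ξ ∈ Xf k hD) :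
    (∃ η : Pic0 k E, RedClass O₁ O₂ O₁ ρ₁ p ξ η) ∧ ∃ η : Pic0 k E, RedClass O₁ O₂ O₂ ρ₂ p ξ η :=
  ⟨exists_redClass_of_slopeAt_eq_zero hD.S₁ hξ.1 fun P => (hξ.2 P).1,
    exists_redClass_of_slopeAt_eq_zero hD.S₂ hξ.1 fun P => (hξ.2 P).2⟩

/-- the classes of `K₁` have images `(0, 0)` -/
theorem redClass_zero_of_mem_K1 {ξ : Pic0 L F} (hξ : ξ ∈ K1 O₁ O₂ ρ₁ ρ₂ p) :
    RedClass (k := k) O₁ O₂ O₁ ρ₁ p ξ 0 ∧ RedClass (k := k) O₁ O₂ O₂ ρ₂ p ξ 0 := by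
  obtain ⟨w, hw, hU, h1, h2⟩ := hξ
  exact ⟨⟨w, hw, hU, by rw [h1]; exact isKummerRep_zero_one p⟩,
    ⟨w, hw, hU, by rw [h2]; exact isKummerRep_zero_one p⟩⟩

/-- **(S3), the kernel of `(θ₁, θ₂)` is `K₁`.**  If both reductions of a class are trivial then the
class has a Kummer function with reductions `(1, 1)`.  Inputs: constants of `E` are the functions
without zeros and poles, `k` is algebraically closed, and strong approximation for `(ρ₁, ρ₂)`. -/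
theorem mem_K1_of_redClass_zero [IsAlgClosed L] [IsAlgClosed k]
    (hD : FlatData (L := L) O₁ O₂ ρ₁ ρ₂ p)
    (hconstE : ∀ g : E, g ≠ 0 → (∀ v : Place k E, v.ord g = 0) → ∃ c : k, g = algebraMap k E c)
    (hSA : ∀ a b : E, ∃ (g : F) (h₁ : g ∈ O₁) (h₂ : g ∈ O₂), ρ₁ ⟨g, h₁⟩ = a ∧ ρ₂ ⟨g, h₂⟩ = b)
    {ξ : Pic0 L F} (h₁ : RedClass (k := k) O₁ O₂ O₁ ρ₁ p ξ 0)
    (h₂ : RedClass (k := k) O₁ O₂ O₂ ρ₂ p ξ 0) : ξ ∈ K1 O₁ O₂ ρ₁ ρ₂ p := by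
  have hp := hD.S₁.pos
  obtain ⟨w, hw, hU, hη₁⟩ := h₁
  have hη₂ := h₂.of_rep hD.S₂ hw hU
  obtain ⟨b₁, hb₁, e₁⟩ := exists_eq_pow_of_isKummerRep_zero hconstE hp hη₁
  obtain ⟨b₂, hb₂, e₂⟩ := exists_eq_pow_of_isKummerRep_zero hconstE hp hη₂
  obtain ⟨g, hg₁, hg₂, hr₁, hr₂⟩ := hSA b₁ b₂
  -- `g` is a unit at both valuations
  have hv₁ : O₁.valuation g = 1 := by
    refine le_antisymm ((O₁.valuation_le_one_iff g).mpr hg₁) (not_lt.mp fun hlt => hb₁ ?_)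
    rw [← hr₁]
    exact (hD.S₁.ker ⟨g, hg₁⟩).mpr hlt
  have hv₂ : O₂.valuation g = 1 := by
    refine le_antisymm ((O₂.valuation_le_one_iff g).mpr hg₂) (not_lt.mp fun hlt => hb₂ ?_)
    rw [← hr₂]
    exact (hD.S₂.ker ⟨g, hg₂⟩).mpr hlt
  have hgU : UnitTwo O₁ O₂ g := ⟨hv₁, hv₂⟩
  have hg0 : g ≠ 0 := hgU.ne_zero
  have hrg₁ : red O₁ ρ₁ g = b₁ := by rw [red_of_mem hg₁, hr₁]
  have hrg₂ : red O₂ ρ₂ g = b₂ := by rw [red_of_mem hg₂, hr₂]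
  -- the new Kummer function
  have hw' : IsKummerRep p ξ (w * (g ^ p)⁻¹) := by
    have := hw.mul (isKummerRep_zero_pow' (L := L) p hg0).inv
    rwa [neg_zero, add_zero] at this
  have hUp : UnitTwo O₁ O₂ (g ^ p) := hgU.pow p
  refine ⟨w * (g ^ p)⁻¹, hw', hU.mul hUp.inv, ?_, ?_⟩
  · rw [red_mul hU.mem₁ hUp.inv.mem₁, red_inv hUp.1, red_pow hg₁, hrg₁, e₁]
    exact mul_inv_cancel₀ (pow_ne_zero _ hb₁)
  · rw [red_mul hU.mem₂ hUp.inv.mem₂, red_inv hUp.2, red_pow hg₂, hrg₂, e₂]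
    exact mul_inv_cancel₀ (pow_ne_zero _ hb₂)

/-- **(S3)** in one statement: a class of `X^f` lies in `K₁` iff both its images vanish. -/
theorem mem_K1_iff_redClass_zero [IsAlgClosed L] [IsAlgClosed k]
    (hD : FlatData (L := L) O₁ O₂ ρ₁ ρ₂ p)
    (hconstE : ∀ g : E, g ≠ 0 → (∀ v : Place k E, v.ord g = 0) → ∃ c : k, g = algebraMap k E c)
    (hSA : ∀ a b : E, ∃ (g : F) (h₁ : g ∈ O₁) (h₂ : g ∈ O₂), ρ₁ ⟨g, h₁⟩ = a ∧ ρ₂ ⟨g, h₂⟩ = b)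
    {ξ : Pic0 L F} : ξ ∈ K1 O₁ O₂ ρ₁ ρ₂ p ↔
      RedClass (k := k) O₁ O₂ O₁ ρ₁ p ξ 0 ∧ RedClass (k := k) O₁ O₂ O₂ ρ₂ p ξ 0 :=
  ⟨redClass_zero_of_mem_K1, fun h => mem_K1_of_redClass_zero hD hconstE hSA h.1 h.2⟩

end Fermat.Agent.S40x.Slope.Xf
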